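/-
A section which cuts out a locally principal regular ideal on an affine open and vanishes nowhere
else determines its line system up to isomorphism; inverse images.
-/
import Fermat.Agent.Jacobian.Divisor.LocalEq
import Fermat.Agent.Jacobian.Line.AffineSheaf

set_option autoImplicit false
set_option linter.unusedVariables false

universe u

open CategoryTheory AlgebraicGeometry TopologicalSpace Opposite

noncomputable section

namespace Fermat.Agent.Jacobian

variable {X Y : Scheme.{u}}

/-- `s` does not vanish at `q`. -/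
def NonvanishingAt {L : LineSys X} (s : L.Sec ⊤) (q : X) : Prop :=
  q ∈ X.basicOpen (s.coord q (L.U q) le_top le_rfl)

theorem nonvanishingAt_iff {L : LineSys X} (s : L.Sec ⊤) (q x : X) (W : X.Opens)
    (hx : W ≤ L.U x) (hq : q ∈ W) :
    NonvanishingAt s q ↔ q ∈ X.basicOpen (s.coord x W le_top hx) := by
  set V := W ⊓ L.U q with hV
  have hqV : q ∈ V := ⟨hq, L.mem q⟩
  have h1 : X.basicOpen (res (inf_le_right : V ≤ L.U q) (s.coord q _ le_top le_rfl)) =
      V ⊓ X.basicOpen (s.coord q (L.U q) le_top le_rfl) := Scheme.basicOpen_res _ _ _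
  have h2 : X.basicOpen (res (inf_le_left : V ≤ W) (s.coord x W le_top hx)) =
      V ⊓ X.basicOpen (s.coord x W le_top hx) := Scheme.basicOpen_res _ _ _
  rw [s.coord_res] at h1 h2
  have h3 : X.basicOpen (s.coord x V le_top (inf_le_left.trans hx)) =
      X.basicOpen (s.coord q V le_top inf_le_right) := by
    rw [s.coord_g x q V le_top (inf_le_left.trans hx) inf_le_right, Scheme.basicOpen_mul,
      Scheme.basicOpen_of_isUnit _ (Units.isUnit _)]
    exact inf_eq_right.mpr (X.basicOpen_le _)
  constructor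
  · intro h
    have h' : q ∈ X.basicOpen (s.coord q V le_top inf_le_right) := h1 ▸ ⟨hqV, h⟩
    rw [← h3, h2] at h'
    exact h'.2
  · intro h
    have h' : q ∈ X.basicOpen (s.coord x V le_top (inf_le_left.trans hx)) := h2 ▸ ⟨hqV, h⟩
    rw [h3, h1] at h'
    exact h'.2

theorem nonvanishingAt_iff_isUnit_germ {L : LineSys X} (s : L.Sec ⊤) (q x : X) (W : X.Opens)
    (hx : W ≤ L.U x) (hq : q ∈ W) :
    NonvanishingAt s q ↔ IsUnit (X.presheaf.germ W q hq (s.coord x W le_top hx)) := by
  rw [nonvanishingAt_iff s q x W hx hq, Scheme.mem_basicOpen _ _ _ hq]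

/-- Nonvanishing is inherited by inverse images. -/
theorem NonvanishingAt.pull (f : Y ⟶ X) {L : LineSys X} {s : L.Sec ⊤} {y : Y}
    (h : NonvanishingAt s (f y)) :
    NonvanishingAt (s.pull f (V' := ⊤) le_top) y := by
  refine (nonvanishingAt_iff (s.pull f (V' := ⊤) le_top) y y (f ⁻¹ᵁ L.U (f y)) le_rfl
    (L.mem _)).mpr ?_
  have e := LineSys.Sec.coord_pull f (V' := ⊤) le_top s y (f ⁻¹ᵁ L.U (f y)) le_top le_rfl
    (L.U (f y)) le_top le_rfl le_rfl
  refine (congrArg Y.basicOpen e).ge ?_
  rw [Scheme.basicOpen_appLE]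
  exact ⟨L.mem _, h⟩

/-- The equations of a datum are nowhere zero on the second open. -/
theorem IdealDatum.nonvanishingAt (d : IdealDatum X) {q : X} (hq : q ∈ d.W1) :
    NonvanishingAt d.equations.one q := by
  obtain ⟨r, hr, hu⟩ := d.exists_unit
  show q ∈ X.basicOpen (res le_rfl (d.equations.f q))
  rw [res_self]
  rcases (d.equations_isEq q).2 with ⟨hW, h1⟩ | ⟨hW, he⟩
  · rw [h1, Scheme.basicOpen_of_isUnit _ isUnit_one]
    exact d.equations.mem q
  · set V := d.equations.U q ⊓ d.W1
    have hV : V ≤ d.W0 := inf_le_left.trans hW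
    have key := d.map_eq_span (d.equations_isEq q) (inf_le_left : V ≤ d.equations.U q) hV
    have hmem := Ideal.mem_map_of_mem (res hV) hr
    rw [key, Ideal.mem_span_singleton'] at hmem
    obtain ⟨a, ha⟩ := hmem
    have hunit : IsUnit (res (inf_le_left : V ≤ d.equations.U q) (d.equations.f q)) := by
      have := hu.map (res (le_inf hV inf_le_right))
      rw [res_res, ← ha] at this
      exact isUnit_of_mul_isUnit_right this
    have e1 : X.basicOpen (res (inf_le_left : V ≤ d.equations.U q) (d.equations.f q)) =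
        V ⊓ X.basicOpen (d.equations.f q) := Scheme.basicOpen_res _ _ _
    rw [Scheme.basicOpen_of_isUnit _ hunit] at e1
    exact (e1.le (show q ∈ V from ⟨d.equations.mem q, hq⟩)).2

/-- `s` is the section of the effective divisor of the ideal `J` of the affine open `W`. -/
structure IsDivisor {L : LineSys X} (s : L.Sec ⊤) (W : X.Opens) (J : Ideal Γ(X, W)) : Prop where
  cut : CutsOut s W J
  off : ∀ q, q ∉ W → NonvanishingAt s q

theorem IdealDatum.isDivisor (d : IdealDatum X) : IsDivisor d.equations.one d.W0 d.J := by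
  refine ⟨fun x V _ hW hx => ?_, fun q hq => d.nonvanishingAt ?_⟩
  · exact (d.map_eq_span (d.equations_isEq x) hx hW).trans
      (congrArg (fun z => Ideal.span {z}) (Equations.coord_one d.equations x V le_top hx).symm)
  · have : q ∈ d.W0 ⊔ d.W1 := by rw [d.cover]; trivial
    exact this.resolve_left hq

/-- Two sections with the same locally principal regular ideal are carried into each other. -/
theorem IsDivisor.exists_iso {L L' : LineSys X} {s : L.Sec ⊤} {s' : L'.Sec ⊤} {W : X.Opens}
    (hW : IsAffineOpen W) {J : Ideal Γ(X, W)} (hJ : LocPrincipalRegular J) (h : IsDivisor s W J)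
    (h' : IsDivisor s' W J) : ∃ e : LineSys.Iso L L', LineSys.Sec.IsImage e s s' := by
  refine exists_iso_of_associated s s' fun x a q hq => ?_
  by_cases hqW : q ∈ W
  · obtain ⟨b, hb, hm⟩ := hW.exists_basicOpen_le (V := L.U x ⊓ L'.U a) ⟨q, hq⟩ hqW
    obtain ⟨h0, hh0, f, hf, he⟩ := hJ _ (hW.primeIdealOf ⟨q, hqW⟩).isPrime
    set V := X.basicOpen (h0 * b) with hVdef
    have hVm : V = X.basicOpen h0 ⊓ X.basicOpen b := Scheme.basicOpen_mul ..
    have hq0 : q ∈ X.basicOpen h0 := by
      by_contra hc
      apply hh0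
      have hmem : hW.primeIdealOf ⟨q, hqW⟩ ∉ (hW.fromSpec ⁻¹ᵁ X.basicOpen h0) := by
        show hW.fromSpec (hW.primeIdealOf ⟨q, hqW⟩) ∉ X.basicOpen h0
        rw [hW.fromSpec_primeIdealOf]
        exact hc
      rw [hW.fromSpec_preimage_basicOpen] at hmem
      exact not_not.mp hmem
    have hVle : V ≤ L.U x ⊓ L'.U a := (hVm.le.trans inf_le_right).trans hb
    refine ⟨V, hVm.ge ⟨hq0, hm⟩, hVle, ?_⟩
    have := hW.isLocalization_basicOpen h0
    let e := IsLocalization.algEquiv (Submonoid.powers h0) (Localization.Away h0)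
      Γ(X, X.basicOpen h0)
    have hgen : IsRegular (e f) := by
      rw [isRegular_iff_mem_nonZeroDivisors]
      exact MulEquivClass.map_nonZeroDivisors e.toRingEquiv.toMulEquiv ▸ ⟨f, hf, rfl⟩
    have hle : V ≤ X.basicOpen h0 := hVm.le.trans inf_le_left
    have hreg := (regularOn_of_isAffineOpen (hW.basicOpen h0) hgen).res hle
    have hspan : J.map (res (X.basicOpen_le (h0 * b))) = Ideal.span {res hle (e f)} := by
      have h2 := congrArg (Ideal.map ((res hle).comp (e : Localization.Away h0 →+*
        Γ(X, X.basicOpen h0)))) he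
      rw [Ideal.map_map, Ideal.map_span, Set.image_singleton] at h2
      refine Eq.trans ?_ h2
      congr 1
      refine RingHom.ext fun z => ?_
      show res (X.basicOpen_le (h0 * b)) z = res hle (e (algebraMap _ _ z))
      rw [e.commutes]
      exact (res_res (X.basicOpen_le h0) hle z).symm
    have c1 := h.cut x V (hW.basicOpen _) (X.basicOpen_le _) (hVle.trans inf_le_left)
    have c2 := h'.cut a V (hW.basicOpen _) (X.basicOpen_le _) (hVle.trans inf_le_right)
    rw [hspan] at c1 c2
    have hr2 : RegularOn (s'.coord a V le_top (hVle.trans inf_le_right)) := by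
      obtain ⟨u, hu⟩ := associated_of_span_eq (a := s'.coord a V le_top (hVle.trans inf_le_right))
        (by simpa [res_self] using hreg V le_rfl) c2.symm
      rw [← hu]
      intro V' hV'
      rw [map_mul]
      exact (hreg V' hV').mul (u.isUnit.map (res hV')).isRegular
    refine ⟨hr2, associated_of_span_eq (by simpa [res_self] using hr2 V le_rfl) (c1.symm.trans c2)⟩
  · set V := X.basicOpen (s.coord x _ le_top (inf_le_left : L.U x ⊓ L'.U a ≤ L.U x)) ⊓
      X.basicOpen (s'.coord a _ le_top (inf_le_right : L.U x ⊓ L'.U a ≤ L'.U a)) with hVdef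
    have hqV : q ∈ V := ⟨(nonvanishingAt_iff s q x _ inf_le_left hq).mp (h.off q hqW),
      (nonvanishingAt_iff s' q a _ inf_le_right hq).mp (h'.off q hqW)⟩
    have hVle : V ≤ L.U x ⊓ L'.U a := inf_le_left.trans (X.basicOpen_le _)
    have u1 : IsUnit (s.coord x V le_top (hVle.trans inf_le_left)) := by
      rw [← s.coord_res x hVle le_top inf_le_left]
      have := (X.toLocallyRingedSpace.toRingedSpace.isUnit_res_basicOpen
        (s.coord x _ le_top (inf_le_left : L.U x ⊓ L'.U a ≤ L.U x))).map
          (res (inf_le_left : V ≤ X.basicOpen (s.coord x _ le_top inf_le_left)))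
      have e3 := res_res (X.basicOpen_le (s.coord x _ le_top
        (inf_le_left : L.U x ⊓ L'.U a ≤ L.U x))) (inf_le_left : V ≤ _)
        (s.coord x _ le_top (inf_le_left : L.U x ⊓ L'.U a ≤ L.U x))
      exact e3 ▸ this
    have u2 : IsUnit (s'.coord a V le_top (hVle.trans inf_le_right)) := by
      rw [← s'.coord_res a hVle le_top inf_le_right]
      have := (X.toLocallyRingedSpace.toRingedSpace.isUnit_res_basicOpen
        (s'.coord a _ le_top (inf_le_right : L.U x ⊓ L'.U a ≤ L'.U a))).map
          (res (inf_le_right : V ≤ X.basicOpen (s'.coord a _ le_top inf_le_right)))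
      have e3 := res_res (X.basicOpen_le (s'.coord a _ le_top
        (inf_le_right : L.U x ⊓ L'.U a ≤ L'.U a))) (inf_le_right : V ≤ _)
        (s'.coord a _ le_top (inf_le_right : L.U x ⊓ L'.U a ≤ L'.U a))
      exact e3 ▸ this
    exact ⟨V, hqV, hVle, fun V' hV' => (u2.map (res hV')).isRegular,
      (associated_one_iff_isUnit.mpr u2).trans (associated_one_iff_isUnit.mpr u1).symm⟩

/-- The inverse image of a divisor. -/
theorem IsDivisor.pull (f : Y ⟶ X) {L : LineSys X} {s : L.Sec ⊤} {W : X.Opens}
    (hW : IsAffineOpen W) {J : Ideal Γ(X, W)} (h : IsDivisor s W J) :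
    IsDivisor (s.pull f (V' := ⊤) le_top) (f ⁻¹ᵁ W) (J.map (f.app W).hom) := by
  refine ⟨cutsOut_of_cover fun y hy => ?_, fun y hy => (h.off _ hy).pull f⟩
  obtain ⟨b, hb, hm⟩ := exists_basicOpen_le_U L hW (q := f y) hy
  refine ⟨y, f ⁻¹ᵁ X.basicOpen b, hm, fun p hp => X.basicOpen_le b hp, fun p hp => hb hp, ?_⟩
  rw [LineSys.Sec.coord_pull f (V' := ⊤) le_top s y (f ⁻¹ᵁ X.basicOpen b) le_top
    (fun p hp => hb hp) (X.basicOpen b) le_top hb le_rfl]
  have := congrArg (Ideal.map (f.appLE (X.basicOpen b) (f ⁻¹ᵁ X.basicOpen b) le_rfl).hom)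
    (h.cut (f y) _ (hW.basicOpen b) (X.basicOpen_le b) hb)
  rw [Ideal.map_map, Ideal.map_span, Set.image_singleton] at this
  refine Eq.trans ?_ this
  rw [Ideal.map_map]
  congr 1
  refine RingHom.ext fun z => ?_
  show res _ (f.app W z) = f.appLE _ _ _ (res _ z)
  rw [Scheme.Hom.app_eq_appLE]
  exact (res_appLE ..).trans (appLE_res ..).symm

end Fermat.Agent.Jacobian
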