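/-
The notions and the intermediate statements from which the charts of the Jacobian are built.
-/
import Fermat.Agent.Jacobian.Core.Targets
import Fermat.Agent.Jacobian.Core.BaseChange
import Fermat.Agent.Jacobian.Charts.IsDivisor

set_option autoImplicit false
set_option linter.unusedVariables false

universe u

open CategoryTheory CategoryTheory.Limits AlgebraicGeometry AlgebraicGeometry.RelPicard
  TopologicalSpace Opposite TensorProduct NeronModelInfra GoodReductionJacobian

noncomputable section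

namespace Fermat.Agent.Jacobian

variable {k : Type u} [Field k] {C : Scheme.{u}} {c : C ⟶ Spec (CommRingCat.of k)}
  {ε : SchemeHomOver (𝟙 (Spec (CommRingCat.of k))) c}

/-- A global section pulled back along a morphism of bases. -/
abbrev bcSec {T T' : Scheme.{u}} {t : T ⟶ Spec (CommRingCat.of k)}
    {t' : T' ⟶ Spec (CommRingCat.of k)} (ψ : SchemeHomOver t' t) {L : LineSys (pullback c t)}
    (s : L.Sec ⊤) : (L.pull (baseChangeSnd c ψ)).Sec ⊤ :=
  s.pull (baseChangeSnd c ψ) (V' := ⊤) le_top

/-- Two sections correspond under an isomorphism of their line systems. -/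
def SameDiv {X : Scheme.{u}} {L L' : LineSys X} (s : L.Sec ⊤) (s' : L'.Sec ⊤) : Prop :=
  ∃ e : LineSys.Iso L L', LineSys.Sec.IsImage e s s'

/-- `s` has no zero on the marked section. -/
def CurveModel.Off (M : CurveModel c ε) {T : Scheme.{u}} (t : T ⟶ Spec (CommRingCat.of k))
    {L : LineSys (pullback c t)} (s : L.Sec ⊤) : Prop :=
  ∀ q, q ∉ M.V0 t → NonvanishingAt s q

/-- `s` is the equation of a family of divisors on the affine chart on whose functions `E` gives
a basis. -/
def CurveModel.IsColength (M : CurveModel c ε) {d : ℕ} (E : Fin d → Γ(C, M.U0)) {T : Scheme.{u}}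
    (t : T ⟶ Spec (CommRingCat.of k)) {L : LineSys (pullback c t)} (s : L.Sec ⊤) : Prop :=
  letI := openAlgebra c M.U0
  letI := openAlgebra t ⊤
  ∃ J : Ideal (Γ(T, ⊤) ⊗[k] Γ(C, M.U0)),
    IsHilb E J ∧ IsDivisor s (M.V0 t) (J.map (chartMap c t M.U0))

theorem CurveModel.IsColength.off {M : CurveModel c ε} {d : ℕ} {E : Fin d → Γ(C, M.U0)}
    {T : Scheme.{u}} {t : T ⟶ Spec (CommRingCat.of k)} {L : LineSys (pullback c t)} {s : L.Sec ⊤}
    (h : M.IsColength E t s) : M.Off t s := by
  obtain ⟨J, -, hJ⟩ := h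
  exact hJ.off

/-- No cohomology on a fibre. -/
def CurveModel.acyclic (M : CurveModel c ε) : GeomPred c :=
  fun K _ _ t a => h1 (pullback.snd c t) (M.V0 t) (M.V1 t) a = 0 ∧ M.chiAt t a = 0

/-- G1: fibres without cohomology form an open set, over which all cohomology vanishes. -/
def CurveModel.AcyclicProperty (M : CurveModel c ε) : Prop :=
  (∀ {T : Scheme.{u}} (t : T ⟶ Spec (CommRingCat.of k)) (a : LinePic (pullback c t)),
    ∃ U : T.Opens, ∀ (K : Type u) [Field K] [IsAlgClosed K] (s : Spec (CommRingCat.of K) ⟶ T),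
      s (IsLocalRing.closedPoint K) ∈ U ↔
        M.acyclic K (s ≫ t) (bcPic c (⟨s, rfl⟩ : SchemeHomOver (s ≫ t) t) a)) ∧
  ∀ {T : Scheme.{u}} [IsAffine T] (t : T ⟶ Spec (CommRingCat.of k)) (N : LineSys (pullback c t)),
    OnFibres c M.acyclic t (LinePic.mk N) →
      Subsingleton (SecOver (pullback.snd c t) N ⊤) ∧
        Function.Surjective (cechD (pullback.snd c t) N (M.V0 t) (M.V1 t))

/-- G2: when the twist by the marked point is acyclic, there is one section for each
trivialisation along the marked point. -/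
def CurveModel.SectionProperty (M : CurveModel c ε) (D : DiagDivisor c) : Prop :=
  ∀ {T : Scheme.{u}} [IsAffine T] (t : T ⟶ Spec (CommRingCat.of k)),
    (∀ (L : LineSys (pullback c t)) (s : L.Sec ⊤), M.Off t s →
      rigHom c ε t (LinePic.mk L) = 1) ∧
    (∀ L : LineSys (pullback c t),
      OnFibres c M.acyclic t (LinePic.mk L / D.pointClass (constPt t ε)) →
      rigHom c ε t (LinePic.mk L) = 1 → ∃ s : L.Sec ⊤, M.Off t s) ∧
    ∀ (L L' : LineSys (pullback c t)) (s : L.Sec ⊤) (s' : L'.Sec ⊤),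
      OnFibres c M.acyclic t (LinePic.mk L / D.pointClass (constPt t ε)) →
      LinePic.mk L = LinePic.mk L' → M.Off t s → M.Off t s' → SameDiv s s'

/-- G3: families with a given basis are stable, and there is a universal one. -/
def CurveModel.ColengthProperty (M : CurveModel c ε) : Prop :=
  (∀ {d : ℕ} (E : Fin d → Γ(C, M.U0)) {T T' : Scheme.{u}} [IsAffine T] [IsAffine T']
      (t : T ⟶ Spec (CommRingCat.of k)) (t' : T' ⟶ Spec (CommRingCat.of k))
      (ψ : SchemeHomOver t' t) (L : LineSys (pullback c t)) (s : L.Sec ⊤),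
    M.IsColength E t s → M.IsColength E t' (bcSec ψ s)) ∧
  (∀ {d : ℕ} (E : Fin d → Γ(C, M.U0)) {T : Scheme.{u}} [IsAffine T]
      (t : T ⟶ Spec (CommRingCat.of k)) (L L' : LineSys (pullback c t)) (s : L.Sec ⊤)
      (s' : L'.Sec ⊤), SameDiv s s' → M.IsColength E t s → M.IsColength E t s') ∧
  ∀ {d : ℕ} (E : Fin d → Γ(C, M.U0)), ∃ (H : Scheme.{u}) (_ : IsAffine H)
      (η : H ⟶ Spec (CommRingCat.of k)) (L : LineSys (pullback c η)) (s : L.Sec ⊤),
    Smooth η ∧ M.IsColength E η s ∧
      ∀ {T : Scheme.{u}} [IsAffine T] (t : T ⟶ Spec (CommRingCat.of k))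
        (L' : LineSys (pullback c t)) (s' : L'.Sec ⊤), M.IsColength E t s' →
        ∃! ψ : SchemeHomOver t η, SameDiv (bcSec ψ s) s'

/-- G4: a section without zero on the marked section is, over a field, the equation of a family
with some basis, and this spreads from a geometric fibre to a neighbourhood. -/
def CurveModel.LiftProperty (M : CurveModel c ε) : Prop :=
  (∀ (K : Type u) [Field K] [IsAlgClosed K] (t : Spec (CommRingCat.of K) ⟶ Spec (CommRingCat.of k))
      (L : LineSys (pullback c t)) (s : L.Sec ⊤), M.Off t s →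
    ∃ (d : ℕ) (E : Fin d → Γ(C, M.U0)), M.IsColength E t s) ∧
  ∀ {d : ℕ} (E : Fin d → Γ(C, M.U0)) {T : Scheme.{u}} [IsAffine T]
    (t : T ⟶ Spec (CommRingCat.of k)) (L : LineSys (pullback c t)) (s : L.Sec ⊤), M.Off t s →
    ∀ (K : Type u) [Field K] [IsAlgClosed K] (σ : Spec (CommRingCat.of K) ⟶ T),
      M.IsColength E (σ ≫ t) (bcSec (⟨σ, rfl⟩ : SchemeHomOver (σ ≫ t) t) s) →
      ∃ W : T.Opens, IsAffineOpen W ∧ σ (IsLocalRing.closedPoint K) ∈ W ∧
        M.IsColength E (W.ι ≫ t) (bcSec (⟨W.ι, rfl⟩ : SchemeHomOver (W.ι ≫ t) t) s)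

/-- The index set of the charts. -/
structure CurveModel.ChartIndex (M : CurveModel c ε) : Type u where
  pos : List (SchemeHomOver (𝟙 (Spec (CommRingCat.of k))) c)
  neg : List (SchemeHomOver (𝟙 (Spec (CommRingCat.of k))) c)
  size : ℕ
  basis : Fin size → Γ(C, M.U0)

/-- The constant twist of a chart. -/
def CurveModel.ChartIndex.twist {M : CurveModel c ε} (i : M.ChartIndex) (D : DiagDivisor c)
    {T : Scheme.{u}} (t : T ⟶ Spec (CommRingCat.of k)) : LinePic (pullback c t) :=
  D.listClass (i.pos.map (constPt t)) / D.listClass (i.neg.map (constPt t)) *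
    D.pointClass (constPt t ε) ^ ((M.genus : ℤ) - 1)

end Fermat.Agent.Jacobian
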