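/-
Fibres without cohomology form an open set, over which all cohomology vanishes.
-/
import Fermat.Agent.Jacobian.Cohom.Vanishing
import Fermat.Agent.Jacobian.Charts.Defs

set_option autoImplicit false
set_option linter.unusedVariables false
set_option linter.style.haveILetI false

universe u

open CategoryTheory CategoryTheory.Limits AlgebraicGeometry AlgebraicGeometry.RelPicard
  TopologicalSpace Opposite NeronModelInfra

noncomputable section

namespace Fermat.Agent.Jacobian

variable {k : Type u} [Field k] {C : Scheme.{u}} {c : C ⟶ Spec (CommRingCat.of k)}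
  {ε : SchemeHomOver (𝟙 (Spec (CommRingCat.of k))) c}

/-- G1: fibres without cohomology form an open set, over which all cohomology vanishes. -/
theorem acyclicProperty (M : CurveModel c ε) : M.AcyclicProperty := by
  refine ⟨fun {T} t a => ?_, fun {T} _ t N hN => ?_⟩
  · obtain ⟨U, hU⟩ := M.exists_open_h1_eq_zero t a
    obtain ⟨f, hf, hchi⟩ := M.chiLocConstProperty t a
    refine ⟨U ⊓ ⟨f ⁻¹' {0}, hf.isOpen_fiber 0⟩, fun K _ _ s => ?_⟩
    exact and_congr (hU K s _).symm (by rw [hchi K s]; rfl)
  · have hs : Function.Surjective (cechD (pullback.snd c t) N (M.V0 t) (M.V1 t)) :=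
      M.surjective_cechD_of_h1_fibres t N fun K _ _ s => (hN K s).1
    refine ⟨?_, hs⟩
    obtain ⟨hfin, hproj⟩ := (M.chart t).finite_projective_sec N hs
    haveI : Module.Finite Γ(T, ⊤) (SecOver (pullback.snd c t) N ⊤) := hfin
    haveI : Module.Projective Γ(T, ⊤) (SecOver (pullback.snd c t) N ⊤) := hproj
    rw [← Module.rankAtStalk_eq_zero_iff_subsingleton (R := Γ(T, ⊤))]
    funext P
    obtain ⟨x, rfl⟩ : ∃ x, T.isoSpec.hom x = P := ⟨(T.isoSpec.inv : _ → T) (P : (Spec Γ(T, ⊤) :)),
      (Scheme.Hom.comp_apply _ _ _).symm.trans (by rw [Iso.inv_hom_id]; rfl)⟩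
    let K : Type u := AlgebraicClosure (T.residueField x)
    let s : Spec (CommRingCat.of K) ⟶ T :=
      Spec.map (CommRingCat.ofHom (algebraMap (T.residueField x) K)) ≫ T.fromSpecResidueField x
    have hx : s (IsLocalRing.closedPoint K) = x :=
      (Scheme.Hom.comp_apply _ _ _).trans (T.fromSpecResidueField_apply x _)
    have h := (M.chiAt_bcPic_eq_chiFun t N (⟨s, rfl⟩ : SchemeHomOver (s ≫ t) t)
      (IsLocalRing.closedPoint K)).symm.trans (hN K s).2
    have hr := (M.chart t).rankAtStalk_sec N hs x
    rw [hx] at h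
    rw [h] at hr
    exact_mod_cast hr

end Fermat.Agent.Jacobian
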