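/-
Generalities for the charts: loci of a predicate on fibres, the constant twists, reflexivity of the
correspondence of sections.
-/
import Fermat.Agent.Jacobian.Charts.Defs
import Fermat.Agent.Jacobian.Glue.Functor
import Fermat.Agent.Jacobian.Props.Local
import Fermat.Agent.Jacobian.Line.AffineSheaf

set_option autoImplicit false
set_option linter.unusedVariables false

universe u

open CategoryTheory CategoryTheory.Limits AlgebraicGeometry AlgebraicGeometry.RelPicard
  TopologicalSpace Opposite NeronModelInfra GoodReductionJacobian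

noncomputable section

namespace Fermat.Agent.Jacobian

variable {k : Type u} [Field k] {C : Scheme.{u}} {c : C ⟶ Spec (CommRingCat.of k)}
  {ε : SchemeHomOver (𝟙 (Spec (CommRingCat.of k))) c}
variable {T T' : Scheme.{u}} {t : T ⟶ Spec (CommRingCat.of k)}
  {t' : T' ⟶ Spec (CommRingCat.of k)}

theorem SameDiv.rfl' {X : Scheme.{u}} {L : LineSys X} (s : L.Sec ⊤) : SameDiv s s :=
  ⟨LineSys.Iso.refl L, fun x a W h hx ha => s.coord_g x a W h hx ha⟩

theorem SameDiv.symm' {X : Scheme.{u}} {L L' : LineSys X} {s : L.Sec ⊤} {s' : L'.Sec ⊤}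
    (h : SameDiv s s') : SameDiv s' s := by
  obtain ⟨e, he⟩ := h
  exact ⟨_, e.isImage_symm he⟩

theorem SameDiv.mk_eq {X : Scheme.{u}} {L L' : LineSys X} {s : L.Sec ⊤} {s' : L'.Sec ⊤}
    (h : SameDiv s s') : LinePic.mk L = LinePic.mk L' :=
  LinePic.mk_eq_mk.mpr ⟨h.choose⟩

/-- The preimage of a chart of the curve. -/
theorem preimage_V0 (M : CurveModel c ε) (φ : SchemeHomOver t' t) :
    baseChangeSnd c φ ⁻¹ᵁ M.V0 t = M.V0 t' := by
  rw [← Scheme.Hom.comp_preimage]
  exact congrArg (· ⁻¹ᵁ M.U0) ((pullback.lift_fst _ _ _).trans (Category.comp_id _))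

theorem CurveModel.Off.bc {M : CurveModel c ε} {L : LineSys (pullback c t)} {s : L.Sec ⊤}
    (h : M.Off t s) (φ : SchemeHomOver t' t) : M.Off t' (bcSec φ s) := fun q hq =>
  (h _ fun hq' => hq (by rw [← preimage_V0 M φ]; exact hq')).pull (baseChangeSnd c φ)

variable {Q : GeomPred c}

/-- Where a predicate holds on the geometric fibres, read at any geometric point. -/
theorem mem_iff_geomPred {a : LinePic (pullback c t)} {U : T.Opens}
    (hU : ∀ (K : Type u) [Field K] [IsAlgClosed K] (s : Spec (CommRingCat.of K) ⟶ T),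
      s (IsLocalRing.closedPoint K) ∈ U ↔ Q K (s ≫ t) (bcPic c (⟨s, rfl⟩ : SchemeHomOver (s ≫ t) t) a))
    {K : Type u} [Field K] [IsAlgClosed K] {v : Spec (CommRingCat.of K) ⟶ Spec (CommRingCat.of k)}
    (ψ : SchemeHomOver v t) :
    ψ.1 (IsLocalRing.closedPoint K) ∈ U ↔ Q K v (bcPic c ψ a) := by
  obtain ⟨g, rfl⟩ := ψ
  exact hU K g

/-- A predicate holds on all fibres of an inverse image exactly when the image is in its locus. -/
theorem range_subset_iff_onFibres {a : LinePic (pullback c t)} {U : T.Opens}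
    (hU : ∀ (K : Type u) [Field K] [IsAlgClosed K] (s : Spec (CommRingCat.of K) ⟶ T),
      s (IsLocalRing.closedPoint K) ∈ U ↔ Q K (s ≫ t) (bcPic c (⟨s, rfl⟩ : SchemeHomOver (s ≫ t) t) a))
    (φ : SchemeHomOver t' t) :
    Set.range φ.1 ⊆ (U : Set T) ↔ OnFibres c Q t' (bcPic c φ a) := by
  constructor
  · intro h K _ _ s
    rw [bcPic_bcPic]
    refine (mem_iff_geomPred hU _).mp ?_
    exact h ⟨s (IsLocalRing.closedPoint K), (Scheme.Hom.comp_apply _ _ _).symm⟩
  · rintro h _ ⟨x, rfl⟩
    obtain ⟨K, _, _, s, hs⟩ := Props.exists_geomPoint T' x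
    have := h K s
    rw [bcPic_bcPic] at this
    have h2 := (mem_iff_geomPred hU _).mpr this
    rw [← hs (IsLocalRing.closedPoint K)]
    rwa [show (postComp φ (⟨s, rfl⟩ : SchemeHomOver (s ≫ t') t')).1 = s ≫ φ.1 from rfl,
      Scheme.Hom.comp_apply] at h2

/-- A predicate on a class over a field holds on all its fibres if it holds on the base itself. -/
theorem onFibres_field {K : Type u} [Field K] [IsAlgClosed K]
    {v : Spec (CommRingCat.of K) ⟶ Spec (CommRingCat.of k)} {a : LinePic (pullback c v)}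
    {U : (Spec (CommRingCat.of K)).Opens}
    (hU : ∀ (K' : Type u) [Field K'] [IsAlgClosed K'] (s : Spec (CommRingCat.of K') ⟶ Spec (CommRingCat.of K)),
      s (IsLocalRing.closedPoint K') ∈ U ↔ Q K' (s ≫ v) (bcPic c (⟨s, rfl⟩ : SchemeHomOver (s ≫ v) v) a))
    (h : Q K v a) : OnFibres c Q v a := by
  intro K' _ _ s
  refine (hU K' s).mp ?_
  have h1 : (IsLocalRing.closedPoint K : Spec (CommRingCat.of K)) ∈ U := by
    have := (mem_iff_geomPred hU (⟨𝟙 _, Category.id_comp v⟩ : SchemeHomOver v v)).mpr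
      (by rw [bcPic_id _ rfl]; exact h)
    exact this
  rwa [@Subsingleton.elim _ (inferInstanceAs (Subsingleton (PrimeSpectrum K)))
    (s (IsLocalRing.closedPoint K')) (IsLocalRing.closedPoint K)]

variable (D : DiagDivisor c)

theorem constPt_comp (P : SchemeHomOver (𝟙 (Spec (CommRingCat.of k))) c)
    (φ : SchemeHomOver t' t) : postComp (constPt t P) φ = constPt t' P :=
  Subtype.ext (show φ.1 ≫ t ≫ P.1 = t' ≫ P.1 by rw [← Category.assoc, φ.2])

theorem bcPic_pointClass_const (P : SchemeHomOver (𝟙 (Spec (CommRingCat.of k))) c)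
    (φ : SchemeHomOver t' t) :
    bcPic c φ (D.pointClass (constPt t P)) = D.pointClass (constPt t' P) := by
  rw [Props.bcPic_pointClass, constPt_comp]

variable {M : CurveModel c ε}

theorem CurveModel.ChartIndex.bcPic_twist (i : M.ChartIndex) (φ : SchemeHomOver t' t) :
    bcPic c φ (i.twist D t) = i.twist D t' := by
  rw [CurveModel.ChartIndex.twist, CurveModel.ChartIndex.twist, map_mul, map_div, map_zpow,
    bcPic_pointClass_const, Props.bcPic_listClass, Props.bcPic_listClass, List.map_map,
    List.map_map]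
  simp only [Function.comp_def, constPt_comp]

/-- A class defined over the ground field is rigidified. -/
theorem rigHom_const {a : LinePic (pullback c t)} {a₀ : LinePic (pullback c (𝟙 (Spec (CommRingCat.of k))))}
    (h : bcPic c (⟨t, Category.comp_id t⟩ : SchemeHomOver t (𝟙 _)) a₀ = a) :
    rigHom c ε t a = 1 := by
  rw [← h, rigHom_bcPic, Props.linePic_field_eq_one (rigHom c ε (𝟙 _) a₀), map_one]

theorem rigHom_pointClass_const (P : SchemeHomOver (𝟙 (Spec (CommRingCat.of k))) c) :
    rigHom c ε t (D.pointClass (constPt t P)) = 1 :=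
  rigHom_const (bcPic_pointClass_const D P _)

theorem CurveModel.ChartIndex.rigHom_twist (i : M.ChartIndex) :
    rigHom c ε t (i.twist D t) = 1 :=
  rigHom_const (i.bcPic_twist D _)

theorem CurveModel.chiAt_zpow (hone : M.UnitClassProperty) (hF : M.FieldTheory D) {K : Type u}
    [Field K] [IsAlgClosed K] (v : Spec (CommRingCat.of K) ⟶ Spec (CommRingCat.of k))
    (b : LinePic (pullback c v)) (n : ℤ) :
    M.chiAt v (b ^ n) = M.chiOne + n * (M.chiAt v b - M.chiOne) := by
  induction n using Int.induction_on with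
  | zero => simp [(hone.2 K v).1]
  | succ m ih => rw [zpow_add_one, hF.chi_mul, ih]; ring
  | pred m ih => rw [zpow_sub_one, ← div_eq_mul_inv, Props.chiAt_div hF, ih]; ring

theorem CurveModel.ChartIndex.chiAt_twist (i : M.ChartIndex) (hlen : i.pos.length = i.neg.length)
    (hone : M.UnitClassProperty) (hF : M.FieldTheory D) {K : Type u} [Field K] [IsAlgClosed K]
    (v : Spec (CommRingCat.of K) ⟶ Spec (CommRingCat.of k)) :
    M.chiAt v (i.twist D v) = 0 := by
  have hpt : M.chiAt v (D.pointClass (constPt v ε)) = M.chiOne + 1 := by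
    have := hF.chi_point K v 1 (constPt v ε)
    rwa [one_mul, (hone.2 K v).1] at this
  rw [CurveModel.ChartIndex.twist, hF.chi_mul, Props.chiAt_div hF, Props.chiAt_listClass hone hF,
    Props.chiAt_listClass hone hF, M.chiAt_zpow D hone hF, hpt, List.length_map, List.length_map,
    hlen, hone.1]
  ring

end Fermat.Agent.Jacobian
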