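/-
The chart attached to a twist and a basis: rigidified classes and uniqueness of morphisms.
-/
import Fermat.Agent.Jacobian.Charts.Twist

set_option autoImplicit false
set_option linter.unusedVariables false

universe u

open CategoryTheory CategoryTheory.Limits AlgebraicGeometry AlgebraicGeometry.RelPicard
  TopologicalSpace Opposite NeronModelInfra GoodReductionJacobian

noncomputable section

namespace Fermat.Agent.Jacobian

variable {k : Type u} [Field k] {C : Scheme.{u}} {c : C ⟶ Spec (CommRingCat.of k)}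
  {ε : SchemeHomOver (𝟙 (Spec (CommRingCat.of k))) c}

/-- A universal family with a given basis. -/
structure CurveModel.Universal (M : CurveModel c ε) (i : M.ChartIndex) : Type (u + 1) where
  H : Scheme.{u}
  [affine : IsAffine H]
  η : H ⟶ Spec (CommRingCat.of k)
  L : LineSys (pullback c η)
  s : L.Sec ⊤
  smooth : Smooth η
  colength : M.IsColength i.basis η s
  univ : ∀ {T : Scheme.{u}} [IsAffine T] (t : T ⟶ Spec (CommRingCat.of k))
    (L' : LineSys (pullback c t)) (s' : L'.Sec ⊤), M.IsColength i.basis t s' →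
    ∃! ψ : SchemeHomOver t η, SameDiv (bcSec ψ s) s'

theorem CurveModel.ColengthProperty.nonempty_universal {M : CurveModel c ε}
    (h : M.ColengthProperty) (i : M.ChartIndex) : Nonempty (M.Universal i) := by
  obtain ⟨H, _, η, L, s, h1, h2, h3⟩ := h.2.2 i.basis
  exact ⟨⟨H, η, L, s, h1, h2, h3⟩⟩

namespace CurveModel.Universal

variable {M : CurveModel c ε} {i : M.ChartIndex} (u₀ : M.Universal i) (D : DiagDivisor c)

/-- The class on the universal family which is to be without cohomology. -/
def twisted : LinePic (pullback c u₀.η) :=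
  LinePic.mk u₀.L / D.pointClass (constPt u₀.η ε)

/-- The class classified by the universal family. -/
def cls : LinePic (pullback c u₀.η) := u₀.twisted D / i.twist D u₀.η

variable {T : Scheme.{u}} {t : T ⟶ Spec (CommRingCat.of k)}

theorem bcPic_twisted (ψ : SchemeHomOver t u₀.η) :
    bcPic c ψ (u₀.twisted D) =
      LinePic.mk (u₀.L.pull (baseChangeSnd c ψ)) / D.pointClass (constPt t ε) := by
  rw [twisted, map_div, bcPic_pointClass_const]
  rfl

theorem bcPic_cls (ψ : SchemeHomOver t u₀.η) :
    bcPic c ψ (u₀.cls D) = LinePic.mk (u₀.L.pull (baseChangeSnd c ψ)) /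
      D.pointClass (constPt t ε) / i.twist D t := by
  rw [cls, map_div, bcPic_twisted, i.bcPic_twist D]

theorem rigHom_cls (hsec : M.SectionProperty D) : rigHom c ε u₀.η (u₀.cls D) = 1 := by
  haveI := u₀.affine
  rw [cls, twisted, map_div, map_div, (hsec u₀.η).1 _ _ u₀.colength.off,
    rigHom_pointClass_const, i.rigHom_twist D, div_one, div_one]

variable {D}

/-- On an affine base the class determines the morphism. -/
theorem eq_of_bcPic_cls [IsAffine T] (hcol : M.ColengthProperty) (hsec : M.SectionProperty D)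
    (ψ ψ' : SchemeHomOver t u₀.η) (hac : OnFibres c M.acyclic t (bcPic c ψ (u₀.twisted D)))
    (h : bcPic c ψ (u₀.cls D) = bcPic c ψ' (u₀.cls D)) : ψ = ψ' := by
  haveI := u₀.affine
  rw [bcPic_cls, bcPic_cls, div_left_inj, div_left_inj] at h
  rw [bcPic_twisted] at hac
  have hs := hcol.1 i.basis u₀.η t ψ u₀.L u₀.s u₀.colength
  have hs' := hcol.1 i.basis u₀.η t ψ' u₀.L u₀.s u₀.colength
  exact (u₀.univ t _ _ hs').unique ((hsec t).2.2 _ _ _ _ hac h hs.off hs'.off) (SameDiv.rfl' _)

end CurveModel.Universal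

/-- The open set cut out by the two conditions on the fibres. -/
theorem CurveModel.exists_open_chi (M : CurveModel c ε) (hchi : M.ChiLocConstProperty)
    {T : Scheme.{u}} (t : T ⟶ Spec (CommRingCat.of k)) (a : LinePic (pullback c t)) :
    ∃ U : T.Opens, ∀ (K : Type u) [Field K] [IsAlgClosed K] (s : Spec (CommRingCat.of K) ⟶ T),
      s (IsLocalRing.closedPoint K) ∈ U ↔
        M.deg0 K (s ≫ t) (bcPic c (⟨s, rfl⟩ : SchemeHomOver (s ≫ t) t) a) := by
  obtain ⟨f, hf, hfa⟩ := hchi t a
  refine ⟨⟨{x | f x = M.chiOne}, hf {M.chiOne}⟩, fun K _ _ s => ?_⟩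
  show f _ = M.chiOne ↔ M.chiAt _ _ = M.chiOne
  rw [hfa K s]

end Fermat.Agent.Jacobian
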