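/-
The charts of the Jacobian from the four pieces: open immersion into the functor of classes and
joint surjectivity on geometric points.
-/
import Fermat.Agent.Jacobian.Charts.Chart

set_option autoImplicit false
set_option linter.unusedVariables false

universe u

open CategoryTheory CategoryTheory.Limits AlgebraicGeometry AlgebraicGeometry.RelPicard
  TopologicalSpace Opposite NeronModelInfra GoodReductionJacobian

noncomputable section

namespace Fermat.Agent.Jacobian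

variable {k : Type u} [Field k] {C : Scheme.{u}} {c : C ⟶ Spec (CommRingCat.of k)}
  {ε : SchemeHomOver (𝟙 (Spec (CommRingCat.of k))) c}
/-- A predicate holding on all fibres of a class over a field holds on the class. -/
theorem onFibres_apply' {Q : GeomPred c} {K : Type u} [Field K] [IsAlgClosed K]
    {v : Spec (CommRingCat.of K) ⟶ Spec (CommRingCat.of k)} {a : LinePic (pullback c v)}
    (h : OnFibres c Q v a) : Q K v a := by
  have := Props.onFibres_apply h (⟨𝟙 _, Category.id_comp v⟩ : SchemeHomOver v v)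
  rwa [bcPic_id _ rfl] at this

variable {M : CurveModel c ε} {D : DiagDivisor c} {i : M.ChartIndex} (u₀ : M.Universal i)

namespace CurveModel.Universal

variable {U1 U2 : u₀.H.Opens}

/-- The class on the open piece `U1 ⊓ U2` of the universal family. -/
abbrev pieceCls (U : u₀.H.Opens) (D : DiagDivisor c) : LinePic (pullback c (U.ι ≫ u₀.η)) :=
  bcPic c (⟨U.ι, rfl⟩ : SchemeHomOver (U.ι ≫ u₀.η) u₀.η) (u₀.cls D)

variable (hac : M.AcyclicProperty) (hchi : M.ChiLocConstProperty) (hsec : M.SectionProperty D)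
  (hcol : M.ColengthProperty) (hlift : M.LiftProperty)
  (hU1 : ∀ (K : Type u) [Field K] [IsAlgClosed K] (s : Spec (CommRingCat.of K) ⟶ u₀.H),
    s (IsLocalRing.closedPoint K) ∈ U1 ↔
      M.acyclic K (s ≫ u₀.η) (bcPic c (⟨s, rfl⟩ : SchemeHomOver (s ≫ u₀.η) u₀.η) (u₀.twisted D)))
  (hU2 : ∀ (K : Type u) [Field K] [IsAlgClosed K] (s : Spec (CommRingCat.of K) ⟶ u₀.H),
    s (IsLocalRing.closedPoint K) ∈ U2 ↔
      M.deg0 K (s ≫ u₀.η) (bcPic c (⟨s, rfl⟩ : SchemeHomOver (s ≫ u₀.η) u₀.η) (u₀.cls D)))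

include hU1 in
theorem acyclic_of_lift {T : Scheme.{u}} {t : T ⟶ Spec (CommRingCat.of k)}
    (g : SchemeHomOver t ((U1 ⊓ U2).ι ≫ u₀.η)) :
    OnFibres c M.acyclic t (bcPic c (postComp
      (⟨(U1 ⊓ U2).ι, rfl⟩ : SchemeHomOver ((U1 ⊓ U2).ι ≫ u₀.η) u₀.η) g) (u₀.twisted D)) := by
  refine (range_subset_iff_onFibres (Q := M.acyclic) hU1 _).mp ?_
  rintro _ ⟨x, rfl⟩
  have h : (g.1 ≫ (U1 ⊓ U2).ι) x ∈ U1 ⊓ U2 := by
    rw [Scheme.Hom.comp_apply]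
    exact (g.1 x).2
  exact h.1

include hcol hsec hU1 in
theorem piece_inj {T : Scheme.{u}} (t : T ⟶ Spec (CommRingCat.of k))
    (g g' : SchemeHomOver t ((U1 ⊓ U2).ι ≫ u₀.η))
    (h : bcPic c g (u₀.pieceCls (U1 ⊓ U2) D) = bcPic c g' (u₀.pieceCls (U1 ⊓ U2) D)) : g = g' := by
  refine Subtype.ext (T.affineCover.hom_ext _ _ fun j => ?_)
  let φ : SchemeHomOver (T.affineCover.f j ≫ t) t := ⟨T.affineCover.f j, rfl⟩
  let incl : SchemeHomOver ((U1 ⊓ U2).ι ≫ u₀.η) u₀.η := ⟨(U1 ⊓ U2).ι, rfl⟩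
  have key : postComp incl (postComp g φ) = postComp incl (postComp g' φ) := by
    refine u₀.eq_of_bcPic_cls hcol hsec _ _ (u₀.acyclic_of_lift hU1 (postComp g φ)) ?_
    simp only [← bcPic_bcPic]
    exact congrArg (bcPic c φ) h
  have := congrArg Subtype.val key
  exact (cancel_mono (U1 ⊓ U2).ι).mp this

include hU1 hU2 in
/-- A family with the basis of the chart gives a point of the chart. -/
theorem exists_lift {T : Scheme.{u}} [IsAffine T] (t : T ⟶ Spec (CommRingCat.of k))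
    (a : LinePic (pullback c t)) (hd : OnFibres c M.deg0 t a)
    (hN : OnFibres c M.acyclic t (a * i.twist D t)) (L : LineSys (pullback c t)) (s : L.Sec ⊤)
    (hL : LinePic.mk L = a * i.twist D t * D.pointClass (constPt t ε))
    (hs : M.IsColength i.basis t s) :
    ∃ g : SchemeHomOver t ((U1 ⊓ U2).ι ≫ u₀.η), bcPic c g (u₀.pieceCls (U1 ⊓ U2) D) = a := by
  obtain ⟨ψ, hψ, -⟩ := u₀.univ t L s hs
  have htw : bcPic c ψ (u₀.twisted D) = a * i.twist D t := by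
    rw [u₀.bcPic_twisted, hψ.mk_eq, hL, mul_div_cancel_right]
  have hcls : bcPic c ψ (u₀.cls D) = a := by
    rw [u₀.bcPic_cls, hψ.mk_eq, hL, mul_div_cancel_right, mul_div_cancel_right]
  have hr : Set.range ψ.1 ⊆ Set.range (U1 ⊓ U2).ι := by
    rw [Scheme.Opens.range_ι]
    rintro x hx
    exact ⟨(range_subset_iff_onFibres (Q := M.acyclic) hU1 ψ).mpr (htw ▸ hN) hx,
      (range_subset_iff_onFibres (Q := M.deg0) hU2 ψ).mpr (hcls ▸ hd) hx⟩
  refine ⟨⟨IsOpenImmersion.lift _ ψ.1 hr, ?_⟩, ?_⟩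
  · rw [← Category.assoc, IsOpenImmersion.lift_fac, ψ.2]
  · exact (bcPic_bcPic_eq _ _ ψ (IsOpenImmersion.lift_fac _ _ hr) _).trans hcls

include hac hsec hcol hlift hU1 hU2 in
/-- Around a point with a geometric lift there is an open set with a lift. -/
theorem exists_lift_near {T : Scheme.{u}} (t : T ⟶ Spec (CommRingCat.of k))
    (a : LinePic (pullback c t)) (hra : rigHom c ε t a = 1) (hd : OnFibres c M.deg0 t a)
    (x : T) (K : Type u) [Field K] [IsAlgClosed K] (σ : Spec (CommRingCat.of K) ⟶ T)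
    (hx : σ (IsLocalRing.closedPoint K) = x)
    (g : SchemeHomOver (σ ≫ t) ((U1 ⊓ U2).ι ≫ u₀.η))
    (hg : bcPic c g (u₀.pieceCls (U1 ⊓ U2) D) =
      bcPic c (⟨σ, rfl⟩ : SchemeHomOver (σ ≫ t) t) a) :
    ∃ (W : Scheme.{u}) (j : W ⟶ T) (_ : IsOpenImmersion j)
      (g : SchemeHomOver (j ≫ t) ((U1 ⊓ U2).ι ≫ u₀.η)), x ∈ j.opensRange ∧
        bcPic c g (u₀.pieceCls (U1 ⊓ U2) D) = bcPic c (⟨j, rfl⟩ : SchemeHomOver (j ≫ t) t) a := by
  haveI := u₀.affine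
  obtain ⟨V1, hV1⟩ := hac.1 t (a * i.twist D t)
  let ψ : SchemeHomOver (σ ≫ t) u₀.η :=
    postComp (⟨(U1 ⊓ U2).ι, rfl⟩ : SchemeHomOver ((U1 ⊓ U2).ι ≫ u₀.η) u₀.η) g
  let φ : SchemeHomOver (σ ≫ t) t := ⟨σ, rfl⟩
  have hψcls : bcPic c ψ (u₀.cls D) = bcPic c φ a := (bcPic_bcPic _ g _).symm.trans hg
  have htw : bcPic c ψ (u₀.twisted D) = bcPic c φ (a * i.twist D t) := by
    rw [map_mul, i.bcPic_twist D, ← hψcls, u₀.bcPic_cls, u₀.bcPic_twisted, div_mul_cancel]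
  have hψac := u₀.acyclic_of_lift hU1 g
  have hxV : x ∈ V1 := by
    rw [← hx]
    refine (hV1 K σ).mpr ?_
    rw [← htw]
    have := onFibres_apply' hψac
    exact this
  obtain ⟨W₀, hW₀, hxW₀, hW₀V⟩ := exists_isAffineOpen_mem_and_subset (U := V1) hxV
  haveI : IsAffine W₀.toScheme := hW₀
  let ι₀ : SchemeHomOver (W₀.ι ≫ t) t := ⟨W₀.ι, rfl⟩
  set a₀ := bcPic c ι₀ a with ha₀
  have hN₀ : OnFibres c M.acyclic (W₀.ι ≫ t) (a₀ * i.twist D (W₀.ι ≫ t)) := by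
    rw [← i.bcPic_twist D ι₀, ha₀, ← map_mul]
    refine (range_subset_iff_onFibres (Q := M.acyclic) hV1 ι₀).mp ?_
    exact fun y hy => hW₀V ((Scheme.Opens.range_ι W₀).le hy)
  obtain ⟨L, hL⟩ := LinePic.mk_surjective
    (a₀ * i.twist D (W₀.ι ≫ t) * D.pointClass (constPt (W₀.ι ≫ t) ε))
  have hacL : OnFibres c M.acyclic (W₀.ι ≫ t)
      (LinePic.mk L / D.pointClass (constPt (W₀.ι ≫ t) ε)) := by
    rw [hL, mul_div_cancel_right]
    exact hN₀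
  obtain ⟨s, hs⟩ := (hsec (W₀.ι ≫ t)).2.1 L hacL (by
    rw [hL, map_mul, map_mul, rigHom_bcPic_eq_one _ hra, i.rigHom_twist D,
      rigHom_pointClass_const, one_mul, one_mul])
  have hr : Set.range σ ⊆ Set.range W₀.ι := by
    rintro _ ⟨z, rfl⟩
    rw [Scheme.Opens.range_ι, @Subsingleton.elim _ (inferInstanceAs (Subsingleton (PrimeSpectrum K)))
      z (IsLocalRing.closedPoint K), hx]
    exact hxW₀
  let σ₀ := IsOpenImmersion.lift W₀.ι σ hr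
  have hσ₀ : σ₀ ≫ W₀.ι = σ := IsOpenImmersion.lift_fac _ _ _
  have hv : σ₀ ≫ W₀.ι ≫ t = σ ≫ t := by rw [← Category.assoc, hσ₀]
  let φ₀ : SchemeHomOver (σ₀ ≫ W₀.ι ≫ t) (W₀.ι ≫ t) := ⟨σ₀, rfl⟩
  let e : SchemeHomOver (σ₀ ≫ W₀.ι ≫ t) (σ ≫ t) := ⟨𝟙 _, by rw [Category.id_comp, hv]⟩
  let ψ₀ : SchemeHomOver (σ₀ ≫ W₀.ι ≫ t) u₀.η := postComp ψ e
  have hψ₀ : bcPic c ψ₀ (u₀.cls D) = bcPic c φ₀ a₀ := by
    rw [← bcPic_bcPic, hψcls, bcPic_bcPic]
    refine ((bcPic_bcPic ι₀ φ₀ a).trans (bcPic_congr ?_ a)).symm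
    show σ₀ ≫ W₀.ι = 𝟙 _ ≫ σ
    rw [Category.id_comp, hσ₀]
  have hmk : LinePic.mk (u₀.L.pull (baseChangeSnd c ψ₀)) =
      LinePic.mk (L.pull (baseChangeSnd c φ₀)) := by
    show _ = bcPic c φ₀ (LinePic.mk L)
    rw [hL, map_mul, map_mul, ← hψ₀, i.bcPic_twist D, bcPic_pointClass_const, u₀.bcPic_cls,
      div_mul_cancel, div_mul_cancel]
  have hψ₀ac : OnFibres c M.acyclic _ (LinePic.mk (u₀.L.pull (baseChangeSnd c ψ₀)) /
      D.pointClass (constPt (σ₀ ≫ W₀.ι ≫ t) ε)) := by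
    rw [hmk]
    have := hacL.bc φ₀
    rwa [map_div, bcPic_pointClass_const] at this
  have hu := hcol.1 i.basis u₀.η _ ψ₀ u₀.L u₀.s u₀.colength
  have hsame := (hsec _).2.2 _ _ _ _ hψ₀ac hmk hu.off (hs.bc φ₀)
  have hcl := hcol.2.1 i.basis _ _ _ _ _ hsame hu
  obtain ⟨W, hW, hxW, hWs⟩ := hlift.2 i.basis (W₀.ι ≫ t) L s hs K σ₀ hcl
  haveI : IsAffine W.toScheme := hW
  let ι₁ : SchemeHomOver (W.ι ≫ W₀.ι ≫ t) (W₀.ι ≫ t) := ⟨W.ι, rfl⟩
  obtain ⟨g₁, hg₁⟩ := u₀.exists_lift hU1 hU2 (W.ι ≫ W₀.ι ≫ t) (bcPic c ι₁ a₀)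
    ((hd.bc ι₀).bc ι₁) (by
      have := hN₀.bc ι₁
      rwa [map_mul, i.bcPic_twist D] at this)
    (L.pull (baseChangeSnd c ι₁)) (bcSec ι₁ s) (by
      show bcPic c ι₁ (LinePic.mk L) = _
      rw [hL, map_mul, map_mul, i.bcPic_twist D, bcPic_pointClass_const]) hWs
  refine ⟨W.toScheme, W.ι ≫ W₀.ι, inferInstance, ⟨g₁.1, g₁.2.trans (Category.assoc _ _ _).symm⟩,
    ?_, ?_⟩
  · rw [← hx, ← hσ₀, Scheme.Hom.comp_apply]
    exact ⟨⟨_, hxW⟩, by rw [Scheme.Hom.comp_apply]; rfl⟩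
  · let e₁ : SchemeHomOver ((W.ι ≫ W₀.ι) ≫ t) (W.ι ≫ W₀.ι ≫ t) :=
      ⟨𝟙 _, by rw [Category.id_comp, Category.assoc]⟩
    refine ((bcPic_bcPic_eq g₁ e₁ _ (Category.id_comp _) _).symm).trans ?_
    rw [hg₁, ha₀, bcPic_bcPic, bcPic_bcPic]
    refine bcPic_congr ?_ a
    show (𝟙 _ ≫ W.ι) ≫ W₀.ι = W.ι ≫ W₀.ι
    rw [Category.id_comp]

end CurveModel.Universal

end Fermat.Agent.Jacobian
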