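/-
The divisor on `C_T` of an ideal of finite colength of the affine chart over an affine base.
-/
import Fermat.Agent.Jacobian.Core.BaseChange
import Fermat.Agent.Jacobian.Divisor.OfIdeal
import Fermat.Agent.Jacobian.Divisor.Finite

set_option autoImplicit false
set_option linter.unusedVariables false

universe u

open CategoryTheory CategoryTheory.Limits AlgebraicGeometry AlgebraicGeometry.RelPicard
  TopologicalSpace Opposite TensorProduct Polynomial NeronModelInfra

noncomputable section

namespace Fermat.Agent.Jacobian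

theorem LocPrincipalRegular.map_equiv {A A' : Type u} [CommRing A] [CommRing A'] (e : A ≃+* A')
    {J : Ideal A} (hJ : LocPrincipalRegular J) : LocPrincipalRegular (J.map e.toRingHom) := by
  intro q hq
  obtain ⟨h, hh, f, hf, he⟩ := hJ (q.comap e.toRingHom) (Ideal.IsPrime.comap _)
  refine ⟨e h, hh, ?_⟩
  let L := IsLocalization.ringEquivOfRingEquiv (M := Submonoid.powers h)
    (T := Submonoid.powers (e h)) (Localization.Away h) (Localization.Away (e h)) e (by
      show Submonoid.map (e : A →* A') (Submonoid.powers h) = _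
      exact Submonoid.map_powers _ _)
  refine ⟨L f, ?_, ?_⟩
  · rw [← MulEquivClass.map_nonZeroDivisors L.toMulEquiv]
    exact ⟨f, hf, rfl⟩
  · have h2 := congrArg (Ideal.map (L : Localization.Away h →+* Localization.Away (e h))) he
    rw [Ideal.map_map, Ideal.map_span, Set.image_singleton] at h2
    refine Eq.trans ?_ h2
    rw [Ideal.map_map]
    congr 1
    refine RingHom.ext fun a => ?_
    exact (IsLocalization.ringEquivOfRingEquiv_eq (S := Localization.Away h)
      (Q := Localization.Away (e h)) (M := Submonoid.powers h) (T := Submonoid.powers (e h))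
      (j := e) (Submonoid.map_powers _ _) a).symm

/-- An ideal of finite colength contains a monic polynomial in every element. -/
theorem IsHilb.exists_monic {k : Type u} [Field k] {R : Type u} [CommRing R] [Algebra k R] {g : ℕ}
    {E : Fin g → R} {B : Type u} [CommRing B] [Algebra k B] {J : Ideal (B ⊗[k] R)}
    (hJ : IsHilb E J) (x : B ⊗[k] R) :
    ∃ m : Polynomial B, m.Monic ∧ m.eval₂ Algebra.TensorProduct.includeLeftRingHom x ∈ J := by
  let φ : (Fin g → B) →ₗ[B] (B ⊗[k] R) ⧸ J :=
    ((Ideal.Quotient.mkₐ B J).toLinearMap).comp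
      (∑ i, ((LinearMap.proj i : (Fin g → B) →ₗ[B] B).smulRight ((1 : B) ⊗ₜ[k] E i)))
  have hφ : Function.Bijective φ := by
    have : (φ : (Fin g → B) → _) =
        fun v => Ideal.Quotient.mk J (∑ i, v i ⊗ₜ[k] E i) := by
      funext v
      simp [φ, TensorProduct.smul_tmul']
    rw [this]
    exact hJ
  have : Module.Finite B ((B ⊗[k] R) ⧸ J) := Module.Finite.of_surjective φ hφ.2
  have hint : IsIntegral B (Ideal.Quotient.mk J x) := Algebra.IsIntegral.isIntegral _
  obtain ⟨m, hm, hmx⟩ := hint
  refine ⟨m, hm, ?_⟩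
  rw [← Ideal.Quotient.eq_zero_iff_mem, hom_eval₂]
  exact hmx

variable {k : Type u} [Field k] {C : Scheme.{u}} {c : C ⟶ Spec (CommRingCat.of k)}
  {ε : SchemeHomOver (𝟙 (Spec (CommRingCat.of k))) c} (M : CurveModel c ε)
  {T : Scheme.{u}} (t : T ⟶ Spec (CommRingCat.of k))

/-- The coordinate `x` on `C_T`. -/
def CurveModel.xT : Γ(pullback c t, M.V0 t) := (pullback.fst c t).appLE M.U0 (M.V0 t) le_rfl M.x

/-- The coordinate `y` on `C_T`. -/
def CurveModel.yT : Γ(pullback c t, M.V1 t) := (pullback.fst c t).appLE M.U1 (M.V1 t) le_rfl M.y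

theorem CurveModel.cover_V (q : (pullback c t : Scheme.{u})) : q ∈ M.V0 t ∨ q ∈ M.V1 t := by
  have : pullback.fst c t q ∈ M.U0 ⊔ M.U1 := by rw [M.cover]; trivial
  exact this

theorem CurveModel.basicOpen_xT : (pullback c t).basicOpen (M.xT t) = M.V0 t ⊓ M.V1 t := by
  rw [CurveModel.xT, Scheme.basicOpen_appLE, ← M.inter0]
  exact inf_eq_right.mpr (fun _ h => h.1)

theorem CurveModel.basicOpen_yT : (pullback c t).basicOpen (M.yT t) = M.V0 t ⊓ M.V1 t := by
  rw [CurveModel.yT, Scheme.basicOpen_appLE, ← M.inter1]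
  exact inf_eq_right.mpr (fun _ h => h.2)

theorem CurveModel.xT_mul_yT :
    res (inf_le_left : M.V0 t ⊓ M.V1 t ≤ M.V0 t) (M.xT t) * res inf_le_right (M.yT t) = 1 := by
  have e : M.V0 t ⊓ M.V1 t ≤ pullback.fst c t ⁻¹ᵁ (M.U0 ⊓ M.U1) := fun _ h => h
  have := congrArg ((pullback.fst c t).appLE (M.U0 ⊓ M.U1) (M.V0 t ⊓ M.V1 t) e) M.x_mul_y
  rw [map_mul, map_one, appLE_res, appLE_res] at this
  refine Eq.trans ?_ this
  exact congrArg₂ (· * ·) (res_appLE (pullback.fst c t) le_rfl inf_le_left M.x)
    (res_appLE (pullback.fst c t) le_rfl inf_le_right M.y)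

/-- Where `y` vanishes, a polynomial in `y` with constant term `1` is invertible. -/
theorem CurveModel.mem_basicOpen_eval_yT (P : Polynomial Γ(T, ⊤)) (hP : P.coeff 0 = 1)
    (q : (pullback c t : Scheme.{u})) (hq : q ∉ M.V0 t) :
    q ∈ (pullback c t).basicOpen (P.eval₂ (baseHom (pullback.snd c t) (M.V1 t)) (M.yT t)) := by
  have hq1 : q ∈ M.V1 t := (M.cover_V t q).resolve_left hq
  rw [Scheme.mem_basicOpen _ _ _ hq1]
  have hy : ¬ IsUnit ((pullback c t).presheaf.germ (M.V1 t) q hq1 (M.yT t)) := fun h => by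
    have := (Scheme.mem_basicOpen _ _ _ hq1).mpr h
    rw [M.basicOpen_yT t] at this
    exact hq this.1
  conv in P.eval₂ _ _ => rw [← X_mul_divX_add P]
  rw [eval₂_add, eval₂_mul, eval₂_X, eval₂_C, hP, map_one, map_add, map_one, map_mul]
  set a := (pullback c t).presheaf.germ (M.V1 t) q hq1 (M.yT t)
  set z := (pullback c t).presheaf.germ (M.V1 t) q hq1
    (P.divX.eval₂ (baseHom (pullback.snd c t) (M.V1 t)) (M.yT t))
  rcases IsLocalRing.isUnit_or_isUnit_of_add_one (show (a * z + 1) + -(a * z) = 1 by ring) with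
    h | h
  · exact h
  · exact absurd (isUnit_of_mul_isUnit_left (x := a) (y := z) (by simpa using h.neg)) hy

variable [IsAffine T] {g : ℕ} {E : Fin g → Γ(C, M.U0)}

/-- The datum of the divisor of an ideal of finite colength. -/
def CurveModel.hilbDatum
    (J : letI := openAlgebra c M.U0
      letI := openAlgebra t ⊤
      Ideal (Γ(T, ⊤) ⊗[k] Γ(C, M.U0)))
    (hJ : letI := openAlgebra c M.U0
      letI := openAlgebra t ⊤
      IsHilb E J)
    (hp : LocPrincipalRegular J) : IdealDatum (pullback c t) :=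
  letI := openAlgebra c M.U0
  letI := openAlgebra t ⊤
  let m := (hJ.exists_monic ((1 : Γ(T, ⊤)) ⊗ₜ[k] M.x)).choose
  { W0 := M.V0 t
    affine := isAffineOpen_fst_preimage c t M.isAffine0
    W1 := (pullback c t).basicOpen
      ((m.reflect m.natDegree).eval₂ (baseHom (pullback.snd c t) (M.V1 t)) (M.yT t))
    cover := by
      refine top_le_iff.mp fun q _ => ?_
      by_cases hq : q ∈ M.V0 t
      · exact Or.inl hq
      · refine Or.inr (M.mem_basicOpen_eval_yT t _ ?_ q hq)
        rw [coeff_reflect, revAt_le (Nat.zero_le _), Nat.sub_zero]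
        exact (hJ.exists_monic _).choose_spec.1
    J := J.map (chartEquiv c t M.isAffine0).toRingHom
    locPrincipal := hp.map_equiv _
    exists_unit := by
      obtain ⟨hm, hmem⟩ := (hJ.exists_monic ((1 : Γ(T, ⊤)) ⊗ₜ[k] M.x)).choose_spec
      refine ⟨_, Ideal.mem_map_of_mem _ hmem, ?_⟩
      set W := (pullback c t).basicOpen
        ((m.reflect m.natDegree).eval₂ (baseHom (pullback.snd c t) (M.V1 t)) (M.yT t)) with hW
      have hW1 : W ≤ M.V1 t := (pullback c t).basicOpen_le _
      have hle : M.V0 t ⊓ W ≤ M.V0 t ⊓ M.V1 t := inf_le_inf_left _ hW1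
      have e1 : (chartEquiv c t M.isAffine0).toRingHom
          (m.eval₂ Algebra.TensorProduct.includeLeftRingHom ((1 : Γ(T, ⊤)) ⊗ₜ[k] M.x)) =
          m.eval₂ (baseHom (pullback.snd c t) (M.V0 t)) (M.xT t) := by
        rw [hom_eval₂]
        congr 1
        · refine RingHom.ext fun b => ?_
          show chartMap c t M.U0 (b ⊗ₜ[k] 1) = _
          rw [chartMap_tmul, map_one, mul_one]
        · show chartMap c t M.U0 (1 ⊗ₜ[k] M.x) = _
          rw [chartMap_tmul, map_one, one_mul]
          rfl
      rw [e1]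
      set V := M.V0 t ⊓ W
      let i : Γ(T, ⊤) →+* Γ(pullback c t, V) := baseHom (pullback.snd c t) V
      let a := res (hle.trans inf_le_left) (M.xT t)
      let b := res (hle.trans inf_le_right) (M.yT t)
      have hab : a * b = 1 := by
        have := congrArg (res hle) (M.xT_mul_yT t)
        rw [map_mul, map_one, res_res, res_res] at this
        exact this
      have h0 : ∀ (U : (pullback c t).Opens) (z : Γ(pullback c t, U)) (hV : V ≤ U)
          (p : Polynomial Γ(T, ⊤)),
          res hV (p.eval₂ (baseHom (pullback.snd c t) U) z) = p.eval₂ i (res hV z) := by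
        intro U z hV p
        rw [hom_eval₂]
        congr 1
        exact RingHom.ext fun r => res_appLE _ _ _ r
      rw [h0 _ _ inf_le_left]
      let : Invertible a := ⟨b, (mul_comm _ _).trans hab, hab⟩
      have key := eval₂_reflect_mul_pow i a m.natDegree m le_rfl
      rw [show res (inf_le_left : V ≤ M.V0 t) (M.xT t) = a from rfl, ← key]
      refine IsUnit.mul ?_ ((isUnit_of_invertible a).pow _)
      show IsUnit ((m.reflect m.natDegree).eval₂ i b)
      rw [← h0 _ _ (hle.trans inf_le_right)]
      have := ((pullback c t).toLocallyRingedSpace.toRingedSpace.isUnit_res_basicOpen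
        ((m.reflect m.natDegree).eval₂
          (baseHom (pullback.snd c t) (M.V1 t)) (M.yT t))).map (res (inf_le_right : V ≤ W))
      have e3 := res_res hW1 (inf_le_right : V ≤ W) ((m.reflect m.natDegree).eval₂
          (baseHom (pullback.snd c t) (M.V1 t)) (M.yT t))
      exact e3 ▸ this }

end Fermat.Agent.Jacobian
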