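/-
Families of divisors with a given basis are stable under base change and isomorphism, and there is
a universal one over a smooth affine base.
-/
import Fermat.Agent.Jacobian.Charts.Defs
import Fermat.Agent.Jacobian.Charts.HilbDatum
import Fermat.Agent.Jacobian.HilbChart.Main
import Fermat.Agent.Jacobian.Cohom.Properties
import Fermat.Agent.Jacobian.Curve.Basics
import Fermat.Agent.Jacobian.Model.Main

set_option autoImplicit false
set_option linter.unusedVariables false
set_option linter.style.haveILetI false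

universe u

open CategoryTheory CategoryTheory.Limits AlgebraicGeometry AlgebraicGeometry.RelPicard
  TopologicalSpace Opposite TensorProduct NeronModelInfra GoodReductionJacobian

noncomputable section

namespace Fermat.Agent.Jacobian

section General

variable {X : Scheme.{u}}

theorem appLE_appLE {Y Z : Scheme.{u}} (f : X ⟶ Y) (g : Y ⟶ Z) {U : Z.Opens} {V : Y.Opens}
    {W : X.Opens} (e : V ≤ g ⁻¹ᵁ U) (e' : W ≤ f ⁻¹ᵁ V) (x : Γ(Z, U)) :
    f.appLE V W e' (g.appLE U V e x) = (f ≫ g).appLE U W (fun _ h => e (e' h)) x := by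
  rw [← ConcreteCategory.comp_apply, Scheme.Hom.appLE_comp_appLE]

theorem IsDivisor.of_eq {L : LineSys X} {s : L.Sec ⊤} {W W' : X.Opens} {J : Ideal Γ(X, W)}
    (h : IsDivisor s W J) (e : W' = W) : IsDivisor s W' (J.map (res e.le)) := by
  subst e
  have : J.map (res (le_refl W')) = J := by
    rw [show res (le_refl W') = RingHom.id Γ(X, W') from RingHom.ext (res_self _), Ideal.map_id]
  rwa [this]

/-- The divisor of a section depends only on the isomorphism class of the pair. -/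
theorem IsDivisor.of_sameDiv {L L' : LineSys X} {s : L.Sec ⊤} {s' : L'.Sec ⊤} {W : X.Opens}
    (hW : IsAffineOpen W) {J : Ideal Γ(X, W)} (h : IsDivisor s W J) (h' : SameDiv s s') :
    IsDivisor s' W J := by
  obtain ⟨e, he⟩ := h'
  refine ⟨cutsOut_of_cover fun q hq => ?_, fun q hq => ?_⟩
  · obtain ⟨b, hb, hm⟩ := hW.exists_basicOpen_le (V := L.U q ⊓ L'.U q)
      ⟨q, L.mem q, L'.mem q⟩ hq
    refine ⟨q, X.basicOpen b, hm, X.basicOpen_le b, hb.trans inf_le_right, ?_⟩
    rw [h.cut q _ (hW.basicOpen b) (X.basicOpen_le b) (hb.trans inf_le_left),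
      he q q _ le_top (hb.trans inf_le_left) (hb.trans inf_le_right),
      Ideal.span_singleton_mul_left_unit (Units.isUnit _)]
  · have hs := (nonvanishingAt_iff s q q (L.U q ⊓ L'.U q) inf_le_left ⟨L.mem q, L'.mem q⟩).mp
      (h.off q hq)
    refine (nonvanishingAt_iff s' q q (L.U q ⊓ L'.U q) inf_le_right ⟨L.mem q, L'.mem q⟩).mpr ?_
    rw [he q q _ le_top inf_le_left inf_le_right, Scheme.basicOpen_mul] at hs
    exact hs.2

end General

variable {k : Type u} [Field k] {C : Scheme.{u}} {c : C ⟶ Spec (CommRingCat.of k)}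
  {ε : SchemeHomOver (𝟙 (Spec (CommRingCat.of k))) c}

/-- Functions pulled back along a morphism of `k`-schemes, as an algebra map. -/
def pullFun {T T' : Scheme.{u}} {t : T ⟶ Spec (CommRingCat.of k)}
    {t' : T' ⟶ Spec (CommRingCat.of k)} (ψ : SchemeHomOver t' t) :
    letI := openAlgebra t ⊤
    letI := openAlgebra t' ⊤
    Γ(T, ⊤) →ₐ[k] Γ(T', ⊤) :=
  letI := openAlgebra t ⊤
  letI := openAlgebra t' ⊤
  { baseHom ψ.1 ⊤ with
    commutes' := fun r => by
      show ψ.1.appLE ⊤ ⊤ _ (t.appLE ⊤ ⊤ _ (kHom k r)) = t'.appLE ⊤ ⊤ _ (kHom k r)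
      obtain ⟨f, rfl⟩ := ψ
      exact appLE_appLE _ _ _ _ _ }

theorem chartMap_push {T T' : Scheme.{u}} {t : T ⟶ Spec (CommRingCat.of k)}
    {t' : T' ⟶ Spec (CommRingCat.of k)} (ψ : SchemeHomOver t' t) (U : C.Opens) :
    letI := openAlgebra c U
    letI := openAlgebra t ⊤
    letI := openAlgebra t' ⊤
    (chartMap c t' U).comp (HilbChart.push (R := Γ(C, U)) (pullFun ψ)).toRingHom =
      ((res (CurveModel.preimage_baseChangeSnd ψ U).ge).comp
        ((baseChangeSnd c ψ).app (pullback.fst c t ⁻¹ᵁ U)).hom).comp (chartMap c t U) := by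
  letI := openAlgebra c U
  letI := openAlgebra t ⊤
  letI := openAlgebra t' ⊤
  have e := (CurveModel.preimage_baseChangeSnd (c := c) ψ U).ge
  refine Algebra.TensorProduct.ringHom_ext (RingHom.ext fun b => ?_) (RingHom.ext fun r => ?_)
  · show chartMap c t' U (pullFun ψ b ⊗ₜ[k] (1 : Γ(C, U))) =
      res e ((baseChangeSnd c ψ).app _ (chartMap c t U (b ⊗ₜ[k] 1)))
    rw [chartMap_tmul, chartMap_tmul, map_one, map_one, mul_one, mul_one]
    show (pullback.snd c t').appLE ⊤ _ _ (ψ.1.appLE ⊤ ⊤ _ b) =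
      res e ((baseChangeSnd c ψ).app _ ((pullback.snd c t).appLE ⊤ _ _ b))
    rw [Scheme.Hom.app_eq_appLE, res_appLE]
    refine (appLE_appLE (pullback.snd c t') ψ.1 _ _ b).trans
      (Eq.trans ?_ (appLE_appLE (baseChangeSnd c ψ) (pullback.snd c t) _ _ b).symm)
    simp only [baseChangeSnd_snd]
  · show chartMap c t' U (pullFun ψ 1 ⊗ₜ[k] r) =
      res e ((baseChangeSnd c ψ).app _ (chartMap c t U ((1 : Γ(T, ⊤)) ⊗ₜ[k] r)))
    rw [map_one, chartMap_tmul, chartMap_tmul, map_one, map_one, one_mul, one_mul]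
    show (pullback.fst c t').appLE U _ _ r =
      res e ((baseChangeSnd c ψ).app _ ((pullback.fst c t).appLE U _ _ r))
    rw [Scheme.Hom.app_eq_appLE, res_appLE, appLE_appLE]
    simp only [baseChangeSnd_fst]

namespace CurveModel

variable {M : CurveModel c ε}

/-- The divisor of a family, pulled back. -/
theorem isDivisor_bcSec {T T' : Scheme.{u}} [IsAffine T] {t : T ⟶ Spec (CommRingCat.of k)}
    {t' : T' ⟶ Spec (CommRingCat.of k)} (ψ : SchemeHomOver t' t) {L : LineSys (pullback c t)}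
    {s : L.Sec ⊤}
    {J : letI := openAlgebra c M.U0
      letI := openAlgebra t ⊤
      Ideal (Γ(T, ⊤) ⊗[k] Γ(C, M.U0))}
    (h : IsDivisor s (M.V0 t) (J.map (chartMap c t M.U0))) :
    letI := openAlgebra c M.U0
    letI := openAlgebra t ⊤
    letI := openAlgebra t' ⊤
    IsDivisor (bcSec ψ s) (M.V0 t')
      ((J.map (HilbChart.push (pullFun ψ))).map (chartMap c t' M.U0)) := by
  letI := openAlgebra c M.U0
  letI := openAlgebra t ⊤
  letI := openAlgebra t' ⊤
  have h2 := ((h.pull (baseChangeSnd c ψ) (isAffineOpen_fst_preimage c t M.isAffine0)).of_eq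
    (preimage_baseChangeSnd ψ M.U0).symm)
  refine Eq.mp (congrArg _ ?_) h2
  rw [Ideal.map_map, Ideal.map_map]
  refine Eq.trans (congrArg (fun f => Ideal.map f J) ?_) (Ideal.map_map _ _).symm
  exact (RingHom.comp_assoc _ _ _).symm.trans (chartMap_push ψ M.U0).symm

theorem isColength_bcSec {d : ℕ} {E : Fin d → Γ(C, M.U0)} {T T' : Scheme.{u}} [IsAffine T]
    {t : T ⟶ Spec (CommRingCat.of k)} {t' : T' ⟶ Spec (CommRingCat.of k)}
    (ψ : SchemeHomOver t' t) {L : LineSys (pullback c t)} {s : L.Sec ⊤}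
    (h : M.IsColength E t s) : M.IsColength E t' (bcSec ψ s) := by
  letI := openAlgebra c M.U0
  letI := openAlgebra t ⊤
  letI := openAlgebra t' ⊤
  obtain ⟨J, hJ, hdiv⟩ := h
  exact ⟨_, HilbChart.isHilb_map (pullFun ψ) hJ, isDivisor_bcSec ψ hdiv⟩

theorem IsColength.of_sameDiv {d : ℕ} {E : Fin d → Γ(C, M.U0)} {T : Scheme.{u}} [IsAffine T]
    {t : T ⟶ Spec (CommRingCat.of k)} {L L' : LineSys (pullback c t)} {s : L.Sec ⊤}
    {s' : L'.Sec ⊤} (e : SameDiv s s') (h : M.IsColength E t s) : M.IsColength E t s' := by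
  obtain ⟨J, hJ, hdiv⟩ := h
  exact ⟨J, hJ, hdiv.of_sameDiv (isAffineOpen_fst_preimage c t M.isAffine0) e⟩

/-- The universal family over a smooth affine scheme. -/
theorem exists_universal_colength [IsAlgClosed k] [IsIntegral C] [LocallyOfFiniteType c]
    (hU : IsDedekindDomain Γ(C, M.U0) ∧ ¬ IsField Γ(C, M.U0)) (hH : HilbProperty k) {d : ℕ}
    (E : Fin d → Γ(C, M.U0)) :
    ∃ (H : Scheme.{u}) (_ : IsAffine H) (η : H ⟶ Spec (CommRingCat.of k))
      (L : LineSys (pullback c η)) (s : L.Sec ⊤),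
      Smooth η ∧ M.IsColength E η s ∧
        ∀ {T : Scheme.{u}} [IsAffine T] (t : T ⟶ Spec (CommRingCat.of k))
          (L' : LineSys (pullback c t)) (s' : L'.Sec ⊤), M.IsColength E t s' →
          ∃! ψ : SchemeHomOver t η, SameDiv (bcSec ψ s) s' := by
  letI := openAlgebra c M.U0
  have := hU.1
  have : Algebra.FiniteType k Γ(C, M.U0) :=
    (M.finiteType_U0).comp (RingHom.FiniteType.of_surjective (kHom k) kHom_bijective.2)
  obtain ⟨HR, hfp, hfs, hlp⟩ := hH Γ(C, M.U0) hU.2 d E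
  set η : Spec (CommRingCat.of HR.H) ⟶ Spec (CommRingCat.of k) :=
    Spec.map (CommRingCat.ofHom (algebraMap k HR.H)) with hη
  letI := openAlgebra η ⊤
  let θ : HR.H →ₐ[k] Γ(Spec (CommRingCat.of HR.H), ⊤) :=
    { (Scheme.ΓSpecIso (CommRingCat.of HR.H)).inv.hom with
      commutes' := fun r => by
        show ((CommRingCat.ofHom (algebraMap k HR.H)) ≫ (Scheme.ΓSpecIso _).inv) r = _
        rw [Scheme.ΓSpecIso_inv_naturality, Scheme.Hom.appTop, Scheme.Hom.app_eq_appLE]
        rfl }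
  have hθ : Function.Bijective θ :=
    (Scheme.ΓSpecIso (CommRingCat.of HR.H)).symm.commRingCatIsoToRingEquiv.bijective
  set J := HR.I.map (HilbChart.push (R := Γ(C, M.U0)) θ) with hJdef
  have hJ : IsHilb E J := HilbChart.isHilb_map θ HR.isHilb
  let dat := M.hilbDatum η J hJ (hlp _ J hJ)
  have hdiv : IsDivisor dat.equations.one (M.V0 η) (J.map (chartMap c η M.U0)) := dat.isDivisor
  have hsm : Smooth η := by
    rw [hη, HasRingHomProperty.Spec_iff (P := @Smooth)]
    show RingHom.Smooth (algebraMap k HR.H)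
    rw [RingHom.smooth_algebraMap]
    exact ⟨hfs, hfp⟩
  refine ⟨_, inferInstance, η, _, dat.equations.one, hsm, ⟨J, hJ, hdiv⟩, ?_⟩
  intro T _ t L' s' hs'
  letI := openAlgebra t ⊤
  obtain ⟨J', hJ', hdiv'⟩ := hs'
  obtain ⟨φ, hφ, huniq⟩ := HR.univ Γ(T, ⊤) J' hJ'
  have hover : (T.toSpecΓ ≫ Spec.map (CommRingCat.ofHom φ.toRingHom)) ≫ η = t := by
    refine AlgebraicGeometry.ext_of_isAffine ?_
    ext x
    obtain ⟨r, rfl⟩ := kHom_bijective.2 x
    rw [hη, Scheme.Hom.comp_appTop, Scheme.Hom.comp_appTop, Scheme.toSpecΓ_appTop]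
    simp only [ConcreteCategory.comp_apply]
    show (Scheme.ΓSpecIso Γ(T, ⊤)).hom ((Spec.map (CommRingCat.ofHom φ.toRingHom)).appTop
      ((((Scheme.ΓSpecIso (CommRingCat.of k)).inv) ≫
        (Spec.map (CommRingCat.ofHom (algebraMap k HR.H))).appTop) r)) = _
    have key : (((Scheme.ΓSpecIso (CommRingCat.of k)).inv ≫
        (Spec.map (CommRingCat.ofHom (algebraMap k HR.H))).appTop) ≫
        (Spec.map (CommRingCat.ofHom φ.toRingHom)).appTop) ≫ (Scheme.ΓSpecIso Γ(T, ⊤)).hom =
        CommRingCat.ofHom (algebraMap k HR.H) ≫ CommRingCat.ofHom φ.toRingHom := by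
      rw [← Scheme.ΓSpecIso_inv_naturality, Category.assoc, Scheme.ΓSpecIso_naturality,
        Category.assoc, Iso.inv_hom_id_assoc]
    refine (congr($(key).hom r)).trans ((φ.commutes r).trans ?_)
    show t.appLE ⊤ ⊤ _ _ = t.appTop _
    rw [Scheme.Hom.appTop, Scheme.Hom.app_eq_appLE]
    rfl
  have hfun : ∀ (ψ : SchemeHomOver t η),
      (pullFun ψ).toRingHom = ψ.1.appTop.hom := fun ψ => by
    show baseHom ψ.1 ⊤ = _
    rw [Scheme.Hom.appTop, Scheme.Hom.app_eq_appLE]
    rfl
  have hpush : ∀ (ψ : SchemeHomOver t η),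
      J.map (HilbChart.push (pullFun ψ)) =
        HR.I.map (HilbChart.push (R := Γ(C, M.U0)) ((pullFun ψ).comp θ)) := fun ψ => by
    have h : HilbChart.push (R := Γ(C, M.U0)) ((pullFun ψ).comp θ) =
        (HilbChart.push (pullFun ψ)).comp (HilbChart.push θ) := by
      show Algebra.TensorProduct.map _ _ = _
      rw [← Algebra.TensorProduct.map_comp]
      rfl
    rw [h, hJdef]
    exact Ideal.map_map _ _
  have hψ₀ : (pullFun (⟨_, hover⟩ : SchemeHomOver t η)).comp θ = φ := by
    refine AlgHom.ext fun x => ?_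
    show (pullFun (⟨_, hover⟩ : SchemeHomOver t η)).toRingHom (θ x) = φ x
    rw [hfun]
    show ((Scheme.ΓSpecIso (CommRingCat.of HR.H)).inv ≫
      (T.toSpecΓ ≫ Spec.map (CommRingCat.ofHom φ.toRingHom)).appTop) x = _
    rw [Scheme.Hom.comp_appTop, Scheme.toSpecΓ_appTop, Scheme.ΓSpecIso_naturality,
      Iso.inv_hom_id_assoc]
    rfl
  refine ⟨⟨_, hover⟩, ?_, fun ψ hψ => ?_⟩
  · have h1 := isDivisor_bcSec (⟨_, hover⟩ : SchemeHomOver t η) hdiv
    rw [hpush, hψ₀, show HR.I.map (HilbChart.push φ) = J' from hφ] at h1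
    exact IsDivisor.exists_iso (isAffineOpen_fst_preimage c t M.isAffine0)
      ((hlp _ J' hJ').map_equiv (chartEquiv c t M.isAffine0)) h1 hdiv'
  · have h1 := (isDivisor_bcSec ψ hdiv).of_sameDiv
      (isAffineOpen_fst_preimage c t M.isAffine0) hψ
    have h2 := CutsOut.unique (isAffineOpen_fst_preimage c t M.isAffine0) h1.cut hdiv'.cut
    have h3 : J.map (HilbChart.push (pullFun ψ)) = J' := by
      have hb := chartMap_bijective c t M.isAffine0
      have h4 := congrArg (Ideal.comap (chartMap c t M.U0)) h2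
      rwa [Ideal.comap_map_of_bijective _ hb, Ideal.comap_map_of_bijective _ hb] at h4
    rw [hpush] at h3
    have h5 : (pullFun ψ).comp θ = φ := huniq _ h3
    refine Subtype.ext (AlgebraicGeometry.ext_of_isAffine ?_)
    ext x
    obtain ⟨y, rfl⟩ := hθ.2 x
    show ψ.1.appTop.hom (θ y) = (Scheme.Hom.appTop _).hom (θ y)
    rw [← hfun ψ, ← hfun ⟨_, hover⟩]
    exact (DFunLike.congr_fun h5 y).trans (DFunLike.congr_fun hψ₀ y).symm

/-- G3 from the chart rings. -/
theorem colengthProperty [IsAlgClosed k] [IsIntegral C] [IsProper c]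
    [SmoothOfRelativeDimension 1 c] (M : CurveModel c ε) : M.ColengthProperty := by
  have hb : CurveBasicsProperty c := curveBasicsProperty c
  exact ⟨fun E _ _ _ _ t t' ψ L s h => isColength_bcSec ψ h,
    fun E _ _ t L L' s s' e h => h.of_sameDiv e,
    fun E => exists_universal_colength (hb.2 M.U0 M.isAffine0 (M.nonempty_U0 hb))
      (HilbChart.hilbProperty k) E⟩

end CurveModel

end Fermat.Agent.Jacobian
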