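/-
Algebra for lifting divisors: split injectivity at a monic element, and bases of quotients under
base change.
-/
import Fermat.Agent.Jacobian.Divisor.Finite

set_option autoImplicit false

universe u

open TensorProduct Polynomial

noncomputable section

namespace Fermat.Agent.Jacobian

variable {B A : Type u} [CommRing B] [CommRing A] [Algebra B A]

/-- In a ring free over the polynomials in `x`, multiplication by a monic polynomial in `x` has a
linear left inverse. -/
theorem exists_leftInverse_monic {n : ℕ} (x : A) (b : Fin n → A)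
    (hb : Function.Bijective
      fun q : Fin n → Polynomial B => ∑ i, (q i).eval₂ (algebraMap B A) x * b i)
    (m : Polynomial B) (hm : m.Monic) :
    ∃ ρ : A →ₗ[B] A, ∀ a, ρ (m.eval₂ (algebraMap B A) x * a) = a := by
  let Ψ : (Fin n → B[X]) →ₗ[B] A :=
    ∑ i, ((LinearMap.mulRight B (b i)).comp (Polynomial.aeval x).toLinearMap).comp
      (LinearMap.proj i)
  have hΨ : ∀ q : Fin n → B[X], Ψ q = ∑ i, (q i).eval₂ (algebraMap B A) x * b i := fun q => by
    simp [Ψ, Polynomial.aeval_def]
  let e := LinearEquiv.ofBijective Ψ (by rw [show ⇑Ψ = _ from funext hΨ]; exact hb)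
  let μ : B[X] →ₗ[B] B[X] := LinearMap.mulLeft B m
  have hd : ∀ p : B[X], m * p /ₘ m = p := fun p => mul_divByMonic_cancel_left p hm
  let δ : B[X] →ₗ[B] B[X] :=
    { toFun := fun p => p /ₘ m
      map_add' := fun p q => by
        rcases subsingleton_or_nontrivial B with h | h
        · exact Subsingleton.elim _ _
        · refine (div_modByMonic_unique _ (p %ₘ m + q %ₘ m) hm ⟨?_, ?_⟩).1
          · rw [mul_add, add_add_add_comm, modByMonic_add_div p m, modByMonic_add_div q m]
          · exact (degree_add_le _ _).trans_lt
              (max_lt (degree_modByMonic_lt _ hm) (degree_modByMonic_lt _ hm))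
      map_smul' := fun r p => by
        rcases subsingleton_or_nontrivial B with h | h
        · exact Subsingleton.elim _ _
        · refine (div_modByMonic_unique _ (r • (p %ₘ m)) hm ⟨?_, ?_⟩).1
          · simp only [RingHom.id_apply, mul_smul_comm, ← smul_add, modByMonic_add_div p m]
          · exact (degree_smul_le _ _).trans_lt (degree_modByMonic_lt _ hm) }
  refine ⟨e.toLinearMap.comp ((δ.compLeft (Fin n)).comp e.symm.toLinearMap), fun a => ?_⟩
  obtain ⟨q, rfl⟩ := e.surjective a
  have key : m.eval₂ (algebraMap B A) x * e q = e fun i => m * q i := by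
    show _ * Ψ q = Ψ _
    simp only [hΨ, Finset.mul_sum, eval₂_mul, mul_assoc]
  rw [key]
  show e (fun i => δ ((e.symm (e fun i => m * q i)) i)) = e q
  rw [e.symm_apply_apply]
  exact congrArg e (funext fun i => hd (q i))

/-- An ideal with coordinates relative to an element having a left inverse is a direct
summand. -/
theorem exists_retraction {m : A} (ρ : A →ₗ[B] A) (hρ : ∀ a, ρ (m * a) = a) (J : Ideal A)
    {n : ℕ} (c w : Fin n → A) (hw : ∀ i, w i ∈ J)
    (h : ∀ j ∈ J, ∃ d : Fin n → A, (∀ i, c i * j = m * d i) ∧ ∑ i, d i * w i = j) :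
    ∃ r : A →ₗ[B] A, (∀ a, r a ∈ J) ∧ ∀ j ∈ J, r j = j := by
  refine ⟨∑ i, (LinearMap.mulRight B (w i)).comp (ρ.comp (LinearMap.mulLeft B (c i))),
    fun a => ?_, fun j hj => ?_⟩
  · rw [LinearMap.sum_apply]
    exact J.sum_mem fun i _ => J.mul_mem_left _ (hw i)
  · obtain ⟨d, hd, hsum⟩ := h j hj
    rw [LinearMap.sum_apply]
    refine Eq.trans (Finset.sum_congr rfl fun i _ => ?_) hsum
    show ρ (c i * j) * w i = d i * w i
    rw [hd, hρ]

/-- The quotient by a direct summand of a free module is projective. -/
theorem projective_quotient_of_retraction [Module.Projective B A] (J : Ideal A) (r : A →ₗ[B] A)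
    (hr : ∀ a, r a ∈ J) (hr' : ∀ j ∈ J, r j = j) : Module.Projective B (A ⧸ J) := by
  let π : A →ₗ[B] A ⧸ J := (Ideal.Quotient.mkₐ B J).toLinearMap
  have hπ : Function.Surjective π := Ideal.Quotient.mk_surjective
  choose g hg using hπ
  have hdiff : ∀ a b, π a = π b → a - r a = b - r b := fun a b h => by
    have hj : a - b ∈ J := Ideal.Quotient.eq.mp h
    have := hr' _ hj
    rw [map_sub] at this
    exact sub_eq_zero.mp (by rw [sub_sub_sub_comm, this, sub_self])
  let sec : (A ⧸ J) →ₗ[B] A :=
    { toFun := fun q => g q - r (g q)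
      map_add' := fun p q => by
        rw [← hdiff (g p + g q) (g (p + q)) (by rw [map_add, hg, hg, hg]), map_add]
        abel
      map_smul' := fun b q => by
        rw [← hdiff (b • g q) (g (b • q)) (by rw [map_smul, hg, hg]), map_smul, RingHom.id_apply,
          smul_sub] }
  refine Module.Projective.of_split sec π (LinearMap.ext fun q => ?_)
  show π (g q - r (g q)) = q
  have h0 : π (r (g q)) = 0 := Ideal.Quotient.eq_zero_iff_mem.mpr (hr _)
  rw [map_sub, hg, h0, sub_zero]

variable (B)

/-- The classes of `d` elements in a quotient, as a linear map. -/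
def quotMap {d : ℕ} (J : Ideal A) (e : Fin d → A) : (Fin d → B) →ₗ[B] A ⧸ J :=
  Fintype.linearCombination B fun i => Ideal.Quotient.mk J (e i)

variable {B}

theorem quotMap_apply {d : ℕ} (J : Ideal A) (e : Fin d → A) (v : Fin d → B) :
    quotMap B J e v = Ideal.Quotient.mk J (∑ i, algebraMap B A (v i) * e i) := by
  simp only [quotMap, Fintype.linearCombination_apply, map_sum, map_mul]
  exact Finset.sum_congr rfl fun i _ => Algebra.smul_def _ _

section Tower

variable {S S' : Type u} [CommRing S] [CommRing S'] [Algebra B S] [Algebra B S'] [Algebra S S']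
  [IsScalarTower B S S'] {M N : Type u} [AddCommGroup M] [Module B M] [AddCommGroup N] [Module B N]

theorem bijective_lTensor_iff_tower (f : M →ₗ[B] N) :
    Function.Bijective (f.lTensor S') ↔ Function.Bijective ((f.baseChange S).lTensor S') := by
  let cM := AlgebraTensorModule.cancelBaseChange B S S S' M
  let cN := AlgebraTensorModule.cancelBaseChange B S S S' N
  have h : (f.lTensor S' : _ → _) ∘ cM = (cN : _ → _) ∘ (f.baseChange S).lTensor S' := by
    funext z
    simp only [Function.comp_apply]
    induction z with
    | zero => simp only [map_zero]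
    | tmul a m =>
      induction m with
      | zero => simp only [tmul_zero, map_zero]
      | tmul b m =>
        simp only [cM, cN, LinearMap.lTensor_tmul, LinearMap.baseChange_tmul,
          AlgebraTensorModule.cancelBaseChange_tmul]
      | add m₁ m₂ h₁ h₂ => simp only [tmul_add, map_add, h₁, h₂]
    | add z₁ z₂ h₁ h₂ => simp only [map_add, h₁, h₂]
  rw [← Function.Bijective.of_comp_iff (f.lTensor S') cM.bijective, h]
  exact cN.toEquiv.comp_bijective _

end Tower

/-- A basis of the quotient after a field extension is one before. -/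
theorem bijective_lTensor_field {κ K : Type u} [Field κ] [Field K] [Algebra B κ] [Algebra B K]
    [Algebra κ K] [IsScalarTower B κ K] {M N : Type u} [AddCommGroup M] [Module B M]
    [AddCommGroup N] [Module B N] (f : M →ₗ[B] N) (hf : Function.Bijective (f.lTensor K)) :
    Function.Bijective (f.lTensor κ) :=
  (Module.FaithfullyFlat.lTensor_bijective_iff_bijective κ K (f.baseChange κ)).mp
    ((bijective_lTensor_iff_tower f).mp hf)

/-- Bijectivity near a prime persists after inverting further. -/
theorem bijective_lTensor_away {S : Type u} [CommRing S] [Algebra B S] (h : B)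
    (hh : IsUnit (algebraMap B S h)) {M N : Type u} [AddCommGroup M] [Module B M]
    [AddCommGroup N] [Module B N] (f : M →ₗ[B] N)
    (hf : Function.Bijective (LocalizedModule.map (Submonoid.powers h) f)) :
    Function.Bijective (f.lTensor S) := by
  let L := Localization (Submonoid.powers h)
  let eM := LocalizedModule.equivTensorProduct (Submonoid.powers h) M
  let eN := LocalizedModule.equivTensorProduct (Submonoid.powers h) N
  have hL : Function.Bijective (f.baseChange L) := by
    have hcomm : (f.baseChange L : _ → _) ∘ eM =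
        (eN : _ → _) ∘ LocalizedModule.map (Submonoid.powers h) f := by
      funext z
      induction z using LocalizedModule.induction_on with
      | _ m s => simp [eM, eN, L]
    rw [← Function.Bijective.of_comp_iff (f.baseChange L) eM.bijective, hcomm]
    exact eN.bijective.comp hf
  letI : Algebra L S := (IsLocalization.Away.lift h (S := L) hh).toAlgebra
  haveI : IsScalarTower B L S := IsScalarTower.of_algebraMap_eq fun r =>
    (IsLocalization.Away.lift_eq h hh r).symm
  rw [bijective_lTensor_iff_tower (S := L) f]
  exact ((LinearEquiv.ofBijective _ hL).lTensor S).bijective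

section BaseChange

variable {B' A' : Type u} [CommRing B'] [CommRing A'] [Algebra B B'] [Algebra B A']
  [Algebra A A'] [Algebra B' A'] [IsScalarTower B A A'] [IsScalarTower B B' A']
  [Algebra.IsPushout B B' A A']

/-- Bases of quotients commute with base change. -/
theorem bijective_quotMap_iff {d : ℕ} (J : Ideal A) (e : Fin d → A) :
    Function.Bijective
        (quotMap B' (J.map (algebraMap A A')) fun i => algebraMap A A' (e i)) ↔
      Function.Bijective ((quotMap B J e).lTensor B') := by
  let G : B' ⊗[B] A ≃ₐ[B'] A' := Algebra.IsPushout.equiv B B' A A'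
  have hG : ∀ (b : B') (a : A), G (b ⊗ₜ a) = algebraMap B' A' b * algebraMap A A' a :=
    fun b a => Algebra.IsPushout.equiv_tmul (R := B) (S := B') (R' := A) (S' := A') b a
  let J' := J.map (algebraMap A A')
  let I := J.map (Algebra.TensorProduct.includeRight : A →ₐ[B] B' ⊗[B] A)
  let π : B' ⊗[B] A →ₐ[B] B' ⊗[B] (A ⧸ J) :=
    Algebra.TensorProduct.map (AlgHom.id B B') (Ideal.Quotient.mkₐ B J)
  have hπ : Function.Surjective π :=
    LinearMap.lTensor_surjective B' (g := (Ideal.Quotient.mkₐ B J).toLinearMap)
      Ideal.Quotient.mk_surjective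
  have hker : RingHom.ker π = I := by
    refine (Algebra.TensorProduct.lTensor_ker (Ideal.Quotient.mkₐ B J)
      Ideal.Quotient.mk_surjective).trans ?_
    rw [show RingHom.ker (Ideal.Quotient.mkₐ B J) = J from Ideal.Quotient.mkₐ_ker B J]
  have hI : I.map G.toRingEquiv.toRingHom = J' := by
    show (J.map _).map _ = _
    erw [Ideal.map_map]
    congr 1
    refine RingHom.ext fun a => ?_
    show G (1 ⊗ₜ a) = _
    rw [hG, map_one, one_mul]
  let θ : B' ⊗[B] (A ⧸ J) →ₐ[B] A' ⧸ J' := Algebra.TensorProduct.lift
    (IsScalarTower.toAlgHom B B' (A' ⧸ J'))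
    (Ideal.Quotient.liftₐ J ((Ideal.Quotient.mkₐ B J').comp (IsScalarTower.toAlgHom B A A'))
      fun a ha => Ideal.Quotient.eq_zero_iff_mem.mpr (Ideal.mem_map_of_mem _ ha))
    fun _ _ => Commute.all _ _
  have hθ : ∀ (b : B') (a : A), θ (b ⊗ₜ Ideal.Quotient.mk J a) =
      Ideal.Quotient.mk J' (algebraMap B' A' b * algebraMap A A' a) := fun b a => by
    show θ (b ⊗ₜ Ideal.Quotient.mk J a) = _
    rw [map_mul]
    exact Algebra.TensorProduct.lift_tmul _ _ _ b _
  have hθπ : ∀ z, θ (π z) = Ideal.Quotient.mk J' (G z) := fun z => by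
    induction z with
    | zero => simp only [map_zero]
    | tmul b a => rw [hG]; exact hθ b a
    | add z₁ z₂ h₁ h₂ => simp only [map_add, h₁, h₂]
  have hθb : Function.Bijective θ := by
    refine ⟨(injective_iff_map_eq_zero θ).mpr fun z hz => ?_, fun q => ?_⟩
    · obtain ⟨w, rfl⟩ := hπ z
      rw [hθπ, Ideal.Quotient.eq_zero_iff_mem, ← hI] at hz
      obtain ⟨w', hw', he⟩ := (Ideal.mem_map_iff_of_surjective G.toRingEquiv.toRingHom
        G.surjective).mp hz
      obtain rfl : w' = w := G.injective he
      exact RingHom.mem_ker.mp (hker.ge hw')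
    · obtain ⟨a, rfl⟩ := Ideal.Quotient.mk_surjective q
      obtain ⟨w, rfl⟩ := G.surjective a
      exact ⟨π w, hθπ w⟩
  let p := TensorProduct.piScalarRight B B' B' (Fin d)
  have hcomm : (quotMap B' J' (fun i => algebraMap A A' (e i)) : _ → _) ∘ p =
      (θ : _ → _) ∘ (quotMap B J e).lTensor B' := by
    funext z
    simp only [Function.comp_apply]
    induction z with
    | zero => simp only [map_zero]
    | tmul b v =>
      simp only [p, TensorProduct.piScalarRight_apply, TensorProduct.piScalarRightHom_tmul,
        LinearMap.lTensor_tmul, quotMap_apply]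
      rw [hθ, map_sum (algebraMap A A'), Finset.mul_sum]
      refine congrArg (Ideal.Quotient.mk J') (Finset.sum_congr rfl fun i _ => ?_)
      rw [Algebra.smul_def (v i) b, map_mul (algebraMap B' A'), map_mul (algebraMap A A'),
        ← IsScalarTower.algebraMap_apply B B' A', ← IsScalarTower.algebraMap_apply B A A']
      ring
    | add z₁ z₂ h₁ h₂ => simp only [map_add, h₁, h₂]
  rw [← Function.Bijective.of_comp_iff (quotMap B' J' fun i => algebraMap A A' (e i))
    p.bijective, hcomm]
  exact Function.Bijective.of_comp_iff' hθb _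

end BaseChange

end Fermat.Agent.Jacobian
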