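/-
Proof of `LiftProperty`: a section without zero on the marked section is the equation of a family
with some basis over a field, and a basis of a fibre is a basis near it.
-/
import Fermat.Agent.Jacobian.Charts.Defs
import Fermat.Agent.Jacobian.Charts.HilbDatum
import Fermat.Agent.Jacobian.Charts.LiftAlgebra
import Fermat.Agent.Jacobian.Cohom.Properties
import Fermat.Agent.Jacobian.Line.Affine

set_option autoImplicit false
set_option linter.unusedVariables false
set_option linter.style.haveILetI false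

universe u

open CategoryTheory CategoryTheory.Limits AlgebraicGeometry AlgebraicGeometry.RelPicard
  TopologicalSpace Opposite TensorProduct Polynomial NeronModelInfra GoodReductionJacobian

noncomputable section

namespace Fermat.Agent.Jacobian

section SecIdeal

variable {X : Scheme.{u}} {L : LineSys X}

/-- The values of the dual sections on a section. -/
def secIdeal (s : L.Sec ⊤) (W : X.Opens) : Ideal Γ(X, W) :=
  LinearMap.range (LineSys.Sec.pairₗ (s.restrict (le_top : W ≤ ⊤)))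

theorem mem_secIdeal {s : L.Sec ⊤} {W : X.Opens} {a : Γ(X, W)} :
    a ∈ secIdeal s W ↔ ∃ t, (s.restrict (le_top : W ≤ ⊤)).pair t = a := Iff.rfl

theorem cutsOut_secIdeal (s : L.Sec ⊤) {W : X.Opens} (hW : IsAffineOpen W) :
    CutsOut s W (secIdeal s W) := by
  intro x V _ hV hx
  refine le_antisymm ?_ ((Ideal.span_singleton_le_iff_mem _).mpr ?_)
  · rw [Ideal.map_le_iff_le_comap]
    intro a ha
    obtain ⟨t, rfl⟩ := mem_secIdeal.mp ha
    rw [Ideal.mem_comap, LineSys.Sec.res_pair _ _ x V hV hx]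
    exact Ideal.mul_mem_right _ _ (Ideal.mem_span_singleton_self _)
  · obtain ⟨n, sD, tD, h1⟩ := LineSys.Sec.exists_dual_basis L hW
    have h2 := congrArg (res hV) h1
    rw [map_sum, map_one] at h2
    have h3 : s.coord x V le_top hx = ∑ i, (sD i).coord x V hV hx *
        res hV ((s.restrict (le_top : W ≤ ⊤)).pair (tD i)) := by
      refine Eq.trans (mul_one _).symm ?_
      rw [← h2, Finset.mul_sum]
      refine Finset.sum_congr rfl fun i _ => ?_
      rw [LineSys.Sec.res_pair _ _ x V hV hx, LineSys.Sec.res_pair _ _ x V hV hx,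
        LineSys.Sec.coord_restrict]
      exact mul_left_comm _ _ _
    rw [h3]
    exact Ideal.sum_mem _ fun i _ =>
      Ideal.mul_mem_left _ _ (Ideal.mem_map_of_mem _ (mem_secIdeal.mpr ⟨tD i, rfl⟩))

/-- Where the section has no zero, its ideal avoids the prime of the point. -/
theorem not_le_of_nonvanishingAt {s : L.Sec ⊤} {W : X.Opens} (hW : IsAffineOpen W)
    {J : Ideal Γ(X, W)} (hJ : CutsOut s W J) (p : PrimeSpectrum Γ(X, W))
    (hq : NonvanishingAt s (hW.fromSpec p)) : ¬ J ≤ p.asIdeal := by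
  intro hle
  set q := hW.fromSpec p with hqdef
  have hqW : q ∈ W := by
    rw [← SetLike.mem_coe, ← hW.range_fromSpec]
    exact ⟨p, rfl⟩
  obtain ⟨b, hb, hm⟩ := hW.exists_basicOpen_le
    (V := X.basicOpen (s.coord q (L.U q) le_top le_rfl)) ⟨q, hq⟩ hqW
  have hbU : X.basicOpen b ≤ L.U q := hb.trans (X.basicOpen_le _)
  have h1 := hJ q _ (hW.basicOpen b) (X.basicOpen_le b) hbU
  have hu : IsUnit (s.coord q (X.basicOpen b) le_top hbU) := by
    rw [← s.coord_res q hbU le_top le_rfl]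
    have := ((X.toLocallyRingedSpace.toRingedSpace.isUnit_res_basicOpen
      (s.coord q (L.U q) le_top le_rfl))).map (res hb)
    have e := res_res (X.basicOpen_le (s.coord q (L.U q) le_top le_rfl)) hb
      (s.coord q (L.U q) le_top le_rfl)
    exact e ▸ this
  rw [Ideal.span_singleton_eq_top.mpr hu] at h1
  have := hW.isLocalization_basicOpen b
  have h1' : res (X.basicOpen_le b) (1 : Γ(X, W)) ∈ J.map (res (X.basicOpen_le b)) := by
    rw [h1]; trivial
  obtain ⟨_, ⟨N, rfl⟩, hN⟩ := (IsLocalization.algebraMap_mem_map_algebraMap_iff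
    (Submonoid.powers b) Γ(X, X.basicOpen b) J 1).mp h1'
  have hbp : b ∈ p.asIdeal := by
    refine p.isPrime.mem_of_pow_mem N (hle ?_)
    simpa using hN
  have : p ∉ hW.fromSpec ⁻¹ᵁ X.basicOpen b := by
    rw [hW.fromSpec_preimage_basicOpen]
    exact fun h => h hbp
  exact this hm

end SecIdeal

variable {k : Type u} [Field k] {C : Scheme.{u}} {c : C ⟶ Spec (CommRingCat.of k)}
  {ε : SchemeHomOver (𝟙 (Spec (CommRingCat.of k))) c}

namespace CurveModel

variable (M : CurveModel c ε) {T : Scheme.{u}} [IsAffine T] (t : T ⟶ Spec (CommRingCat.of k))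

/-- The functions on the first chart, over the base. -/
@[reducible] def algV0 : Algebra Γ(T, ⊤) Γ(pullback c t, M.V0 t) :=
  (baseHom (pullback.snd c t) (M.V0 t)).toAlgebra

/-- The constant functions of the elements of a family on the first chart. -/
def liftE {d : ℕ} (E : Fin d → Γ(C, M.U0)) (i : Fin d) : Γ(pullback c t, M.V0 t) :=
  (pullback.fst c t).appLE M.U0 (M.V0 t) le_rfl (E i)

variable {M t}

theorem exists_monic_mem_secIdeal {L : LineSys (pullback c t)} {s : L.Sec ⊤} (hs : M.Off t s) :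
    ∃ m : Polynomial Γ(T, ⊤), m.Monic ∧
      m.eval₂ (baseHom (pullback.snd c t) (M.V0 t)) (M.xT t) ∈ secIdeal s (M.V0 t) := by
  have hA1 : IsAffineOpen (M.V1 t) := isAffineOpen_fst_preimage c t M.isAffine1
  have hA0 : IsAffineOpen (M.V0 t) := isAffineOpen_fst_preimage c t M.isAffine0
  set J1 := secIdeal s (M.V1 t) with hJ1
  have hc1 := cutsOut_secIdeal s hA1
  have hc0 := cutsOut_secIdeal s hA0
  have htop : J1 ⊔ Ideal.span {M.yT t} = ⊤ := by
    by_contra hne
    obtain ⟨m, hm, hle⟩ := Ideal.exists_le_maximal _ hne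
    refine not_le_of_nonvanishingAt hA1 hc1 ⟨m, hm.isPrime⟩ (hs _ fun hq => ?_)
      (le_sup_left.trans hle)
    have hq1 : hA1.fromSpec ⟨m, hm.isPrime⟩ ∈ M.V1 t := by
      rw [← SetLike.mem_coe, ← hA1.range_fromSpec]
      exact ⟨_, rfl⟩
    have hqy : (⟨m, hm.isPrime⟩ : PrimeSpectrum Γ(pullback c t, M.V1 t)) ∈
        hA1.fromSpec ⁻¹ᵁ (pullback c t).basicOpen (M.yT t) := by
      show hA1.fromSpec ⟨m, hm.isPrime⟩ ∈ (pullback c t).basicOpen (M.yT t)
      rw [M.basicOpen_yT t]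
      exact ⟨hq, hq1⟩
    rw [hA1.fromSpec_preimage_basicOpen] at hqy
    exact hqy (hle (Ideal.mem_sup_right (Ideal.mem_span_singleton_self _)))
  obtain ⟨w, hw, z, hz, hwz⟩ := Submodule.mem_sup.mp (show (1 : Γ(pullback c t, M.V1 t)) ∈
    J1 ⊔ Ideal.span {M.yT t} by rw [htop]; trivial)
  letI : Algebra (Polynomial Γ(T, ⊤)) Γ(pullback c t, M.V1 t) :=
    (eval₂RingHom (baseHom (pullback.snd c t) (M.V1 t)) (M.yT t)).toAlgebra
  obtain ⟨n, b, hb⟩ : ∃ (n : ℕ) (b : Fin n → Γ(pullback c t, M.V1 t)), Function.Bijective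
      fun q : Fin n → Polynomial Γ(T, ⊤) =>
        ∑ i, (q i).eval₂ (baseHom (pullback.snd c t) (M.V1 t)) (M.yT t) * b i := (M.chart t).free1
  let e : (Fin n → Polynomial Γ(T, ⊤)) ≃ₗ[Polynomial Γ(T, ⊤)] Γ(pullback c t, M.V1 t) :=
    LinearEquiv.ofBijective (Fintype.linearCombination (Polynomial Γ(T, ⊤)) b) (by
      rw [show ⇑(Fintype.linearCombination (Polynomial Γ(T, ⊤)) b) = _ from
        funext fun q => (Fintype.linearCombination_apply _ _ q).trans
          (Finset.sum_congr rfl fun i _ => Algebra.smul_def _ _)]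
      exact hb)
  haveI : Module.Free (Polynomial Γ(T, ⊤)) Γ(pullback c t, M.V1 t) := Module.Free.of_equiv e
  haveI : Module.Finite (Polynomial Γ(T, ⊤)) Γ(pullback c t, M.V1 t) := Module.Finite.equiv e
  obtain ⟨P, hP, hPw⟩ := exists_coeff_zero_eq_one_mem_span (B := Γ(T, ⊤)) w (by
    have halg : algebraMap (Polynomial Γ(T, ⊤)) Γ(pullback c t, M.V1 t) X = M.yT t :=
      eval₂_X _ _
    rw [halg, show w - 1 = -z by rw [← hwz]; abel]
    exact neg_mem hz)
  have hPJ : P.eval₂ (baseHom (pullback.snd c t) (M.V1 t)) (M.yT t) ∈ J1 :=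
    (Ideal.span_singleton_le_iff_mem J1).mpr hw hPw
  have hA01 : IsAffineOpen (M.V0 t ⊓ M.V1 t) := M.basicOpen_xT t ▸ hA0.basicOpen (M.xT t)
  refine exists_monic_mem (baseHom (pullback.snd c t) (M.V0 t))
    (baseHom (pullback.snd c t) (M.V1 t)) (res inf_le_left) (res inf_le_right)
    (RingHom.ext fun r => (res_appLE _ _ _ r).trans (res_appLE _ _ _ r).symm) (M.xT t) (M.yT t)
    (M.xT_mul_yT t) ?_ _ J1 ?_ P hP hPJ
  · exact hA0.isLocalization_of_eq_basicOpen (M.xT t) (homOfLE inf_le_left)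
      (M.basicOpen_xT t).symm
  · exact ((hc1.restrict inf_le_right).unique hA01 (hc0.restrict inf_le_left)).le

theorem exists_retraction_secIdeal {L : LineSys (pullback c t)} {s : L.Sec ⊤}
    (hs : M.Off t s) :
    letI := M.algV0 t
    ∃ r : Γ(pullback c t, M.V0 t) →ₗ[Γ(T, ⊤)] Γ(pullback c t, M.V0 t),
      (∀ a, r a ∈ secIdeal s (M.V0 t)) ∧ ∀ j ∈ secIdeal s (M.V0 t), r j = j := by
  letI := M.algV0 t
  obtain ⟨m, hm, hmJ⟩ := exists_monic_mem_secIdeal hs
  obtain ⟨n, b, hb⟩ := (M.chart t).free0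
  obtain ⟨ρ, hρ⟩ := exists_leftInverse_monic (B := Γ(T, ⊤)) (M.xT t) b hb m hm
  obtain ⟨t0, ht0⟩ := mem_secIdeal.mp hmJ
  obtain ⟨N, sD, tD, h1⟩ :=
    LineSys.Sec.exists_dual_basis L (isAffineOpen_fst_preimage c t M.isAffine0)
  refine exists_retraction ρ hρ _ (fun i => (sD i).pair t0)
    (fun i => (s.restrict (le_top : M.V0 t ≤ ⊤)).pair (tD i))
    (fun i => mem_secIdeal.mpr ⟨tD i, rfl⟩) fun j hj => ?_
  obtain ⟨τ, rfl⟩ := mem_secIdeal.mp hj
  refine ⟨fun i => (sD i).pair τ, fun i => ?_, ?_⟩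
  · refine Eq.trans ?_ (congrArg (· * (sD i).pair τ) ht0)
    refine LineSys.Sec.fun_ext_frames (L := L) fun x W h hx => ?_
    rw [map_mul, map_mul, LineSys.Sec.res_pair _ _ x W h hx, LineSys.Sec.res_pair _ _ x W h hx,
      LineSys.Sec.res_pair _ _ x W h hx, LineSys.Sec.res_pair _ _ x W h hx]
    ring
  · refine LineSys.Sec.fun_ext_frames (L := L) fun x W h hx => ?_
    have h2 := congrArg (res h) h1
    rw [map_sum, map_one] at h2
    rw [map_sum, LineSys.Sec.res_pair _ τ x W h hx]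
    refine Eq.trans ?_ (mul_one _)
    rw [← h2, Finset.mul_sum]
    refine Finset.sum_congr rfl fun i _ => ?_
    rw [map_mul, LineSys.Sec.res_pair _ τ x W h hx, LineSys.Sec.res_pair _ (tD i) x W h hx,
      LineSys.Sec.res_pair (sD i) (tD i) x W h hx]
    ring

theorem finite_projective_quotient {L : LineSys (pullback c t)} {s : L.Sec ⊤} (hs : M.Off t s) :
    letI := M.algV0 t
    Module.Finite Γ(T, ⊤) (Γ(pullback c t, M.V0 t) ⧸ secIdeal s (M.V0 t)) ∧
      Module.Projective Γ(T, ⊤) (Γ(pullback c t, M.V0 t) ⧸ secIdeal s (M.V0 t)) ∧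
      Module.Projective Γ(T, ⊤) Γ(pullback c t, M.V0 t) := by
  letI := M.algV0 t
  obtain ⟨m, hm, hmJ⟩ := exists_monic_mem_secIdeal hs
  obtain ⟨n, b, hb⟩ := (M.chart t).free0
  obtain ⟨r, hr, hr'⟩ := exists_retraction_secIdeal hs
  let Ψ : (Fin n → Polynomial Γ(T, ⊤)) →ₗ[Γ(T, ⊤)] Γ(pullback c t, M.V0 t) :=
    ∑ i, ((LinearMap.mulRight Γ(T, ⊤) (b i)).comp (Polynomial.aeval (M.xT t)).toLinearMap).comp
      (LinearMap.proj i)
  have hΨ : ⇑Ψ = fun q : Fin n → Polynomial Γ(T, ⊤) =>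
      ∑ i, (q i).eval₂ (baseHom (pullback.snd c t) (M.V0 t)) (M.xT t) * b i := funext fun q => by
    simp only [Ψ, LinearMap.sum_apply, LinearMap.comp_apply, LinearMap.proj_apply,
      LinearMap.mulRight_apply]
    rfl
  haveI : Module.Projective Γ(T, ⊤) Γ(pullback c t, M.V0 t) :=
    Module.Projective.of_equiv (LinearEquiv.ofBijective Ψ (by rw [hΨ]; exact hb))
  exact ⟨finite_quotient_of_monic_mem (B := Γ(T, ⊤)) (M.xT t) b hb.2 _ m hm hmJ,
    projective_quotient_of_retraction _ r hr hr', inferInstance⟩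

theorem isColength_iff {d : ℕ} (E : Fin d → Γ(C, M.U0)) {L : LineSys (pullback c t)}
    {s : L.Sec ⊤} (hs : M.Off t s) :
    letI := M.algV0 t
    M.IsColength E t s ↔
      Function.Bijective (quotMap Γ(T, ⊤) (secIdeal s (M.V0 t)) (M.liftE t E)) := by
  letI := M.algV0 t
  letI := openAlgebra c M.U0
  letI := openAlgebra t ⊤
  let e := chartEquiv c t M.isAffine0
  have hV0 : IsAffineOpen (M.V0 t) := isAffineOpen_fst_preimage c t M.isAffine0
  have key : ∀ (J' : Ideal (Γ(T, ⊤) ⊗[k] Γ(C, M.U0))),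
      J'.map (chartMap c t M.U0) = secIdeal s (M.V0 t) →
        (IsHilb E J' ↔
          Function.Bijective (quotMap Γ(T, ⊤) (secIdeal s (M.V0 t)) (M.liftE t E))) := by
    intro J' hJ'
    let q := Ideal.quotientEquiv J' (secIdeal s (M.V0 t)) e hJ'.symm
    have hq : ⇑(quotMap Γ(T, ⊤) (secIdeal s (M.V0 t)) (M.liftE t E)) =
        q ∘ fun v : Fin d → Γ(T, ⊤) => Ideal.Quotient.mk J' (∑ i, v i ⊗ₜ[k] E i) := by
      funext v
      rw [quotMap_apply, Function.comp_apply]
      refine Eq.trans ?_ (Ideal.quotientEquiv_mk _ _ _ _ _).symm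
      rw [map_sum e]
      refine congrArg _ (Finset.sum_congr rfl fun i _ => ?_)
      exact (chartMap_tmul c t M.U0 (v i) (E i)).symm
    rw [hq]
    exact (q.toEquiv.comp_bijective _).symm
  constructor
  · rintro ⟨J', hJ', hdiv⟩
    exact (key J' (hdiv.cut.unique hV0 (cutsOut_secIdeal s hV0))).mp hJ'
  · intro h
    have hmap : ((secIdeal s (M.V0 t)).comap (chartMap c t M.U0)).map (chartMap c t M.U0) =
        secIdeal s (M.V0 t) :=
      Ideal.map_comap_of_surjective _ (chartMap_bijective c t M.isAffine0).2 _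
    refine ⟨_, (key _ hmap).mpr h, ?_⟩
    rw [hmap]
    exact ⟨cutsOut_secIdeal s hV0, hs⟩

theorem bijective_bcSec_iff {d : ℕ} (E : Fin d → Γ(C, M.U0)) {T' : Scheme.{u}} [IsAffine T']
    {t' : T' ⟶ Spec (CommRingCat.of k)} (ψ : SchemeHomOver t' t) {L : LineSys (pullback c t)}
    {s : L.Sec ⊤} (hs : M.Off t s) :
    letI := M.algV0 t
    letI : Algebra Γ(T, ⊤) Γ(T', ⊤) := (ψ.1.appLE ⊤ ⊤ fun _ _ => trivial).hom.toAlgebra
    M.IsColength E t' (bcSec ψ s) ↔
      Function.Bijective ((quotMap Γ(T, ⊤) (secIdeal s (M.V0 t)) (M.liftE t E)).lTensor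
        Γ(T', ⊤)) := by
  letI := M.algV0 t
  letI : Algebra Γ(T, ⊤) Γ(T', ⊤) := (ψ.1.appLE ⊤ ⊤ fun _ _ => trivial).hom.toAlgebra
  set f := baseChangeSnd c ψ
  have hA : IsAffineOpen (M.V0 t) := isAffineOpen_fst_preimage c t M.isAffine0
  have hA' : IsAffineOpen (M.V0 t') := isAffineOpen_fst_preimage c t' M.isAffine0
  have heq : f ⁻¹ᵁ M.V0 t = M.V0 t' := preimage_baseChangeSnd ψ M.U0
  have hdiv : IsDivisor (bcSec ψ s) (f ⁻¹ᵁ M.V0 t) ((secIdeal s (M.V0 t)).map (f.app _).hom) :=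
    IsDivisor.pull f hA ⟨cutsOut_secIdeal s hA, hs⟩
  have hs' : M.Off t' (bcSec ψ s) := fun q hq => hdiv.off q fun h => hq (heq.le h)
  rw [isColength_iff E hs']
  letI := M.algV0 t'
  let φ : Γ(pullback c t, M.V0 t) →+* Γ(pullback c t', M.V0 t') :=
    (f.appLE (M.V0 t) (M.V0 t') heq.ge).hom
  have hJ : secIdeal (bcSec ψ s) (M.V0 t') = (secIdeal s (M.V0 t)).map φ := by
    refine (cutsOut_secIdeal (bcSec ψ s) hA').unique hA' ?_
    have h2 := hdiv.cut.restrict heq.ge
    rw [Ideal.map_map] at h2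
    refine Eq.mp (congrArg _ ?_) h2
    congr 1
  rw [hJ]
  letI : Algebra Γ(pullback c t, M.V0 t) Γ(pullback c t', M.V0 t') := φ.toAlgebra
  letI : Algebra Γ(T, ⊤) Γ(pullback c t', M.V0 t') :=
    (φ.comp (baseHom (pullback.snd c t) (M.V0 t))).toAlgebra
  haveI : IsScalarTower Γ(T, ⊤) Γ(pullback c t, M.V0 t) Γ(pullback c t', M.V0 t') :=
    IsScalarTower.of_algebraMap_eq' rfl
  have hH : IsPullback f (pullback.snd c t') (pullback.snd c t) ψ.1 := isPullback_baseChangeSnd ψ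
  have hres : ∀ (U : (pullback c t').Opens) (hU : M.V0 t' ≤ U) (hU' : U ≤ f ⁻¹ᵁ M.V0 t)
      (a : Γ(pullback c t, M.V0 t)), res hU (f.appLE (M.V0 t) U hU' a) = φ a :=
    fun U hU hU' a => res_appLE f hU' hU a
  haveI : IsScalarTower Γ(T, ⊤) Γ(T', ⊤) Γ(pullback c t', M.V0 t') :=
    IsScalarTower.of_algebraMap_eq fun r => by
      show φ (baseHom (pullback.snd c t) (M.V0 t) r) = _
      rw [← hres _ heq.ge le_rfl, appLE_baseHom hH, res_appLE]
      rfl
  haveI : Algebra.IsPushout Γ(T, ⊤) Γ(T', ⊤) Γ(pullback c t, M.V0 t)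
      Γ(pullback c t', M.V0 t') := by
    refine CommRingCat.isPushout_iff_isPushout.mp ?_
    refine ((isPushout_preimage hH hA).flip.of_iso (Iso.refl _) (Iso.refl _) (Iso.refl _)
      ((pullback c t').presheaf.mapIso (eqToIso heq.symm).op) ?_ ?_ ?_ ?_)
    · simp; rfl
    · simp; rfl
    · ext r
      show res heq.ge ((pullback.snd c t').appLE ⊤ _ _ r) = _
      rw [res_appLE]
      rfl
    · ext a
      exact hres _ heq.ge le_rfl a
  rw [← bijective_quotMap_iff (B := Γ(T, ⊤)) (B' := Γ(T', ⊤)) (A' := Γ(pullback c t', M.V0 t'))]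
  refine Iff.of_eq (congrArg _ ?_)
  refine congrArg (fun e : Fin d → Γ(pullback c t', M.V0 t') =>
    ⇑(quotMap Γ(T', ⊤) ((secIdeal s (M.V0 t)).map φ) e)) (funext fun i => ?_)
  show (pullback.fst c t').appLE M.U0 (M.V0 t') le_rfl (E i) =
    f.appLE (M.V0 t) (M.V0 t') heq.ge ((pullback.fst c t).appLE M.U0 (M.V0 t) le_rfl (E i))
  rw [← ConcreteCategory.comp_apply, Scheme.Hom.appLE_comp_appLE]
  simp only [f, baseChangeSnd_fst]

variable (M t)

theorem exists_isColength (K : Type u) [Field K]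
    (t : Spec (CommRingCat.of K) ⟶ Spec (CommRingCat.of k)) {L : LineSys (pullback c t)}
    {s : L.Sec ⊤} (hs : M.Off t s) : ∃ (d : ℕ) (E : Fin d → Γ(C, M.U0)), M.IsColength E t s := by
  letI := M.algV0 t
  letI := (isField_Γ_spec K).toField
  letI := openAlgebra c M.U0
  letI := openAlgebra t ⊤
  obtain ⟨hfin, -, -⟩ := finite_projective_quotient hs
  let mkR : Γ(C, M.U0) → Γ(pullback c t, M.V0 t) ⧸ secIdeal s (M.V0 t) := fun r =>
    Ideal.Quotient.mk _ ((pullback.fst c t).appLE M.U0 (M.V0 t) le_rfl r)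
  have hsp : Submodule.span Γ(Spec (CommRingCat.of K), ⊤) (Set.range mkR) = ⊤ := by
    refine eq_top_iff.mpr fun q _ => ?_
    obtain ⟨a, rfl⟩ := Ideal.Quotient.mk_surjective q
    obtain ⟨z, rfl⟩ := (chartMap_bijective c t M.isAffine0).2 a
    induction z with
    | zero => rw [map_zero, map_zero]; exact zero_mem _
    | tmul b r =>
      rw [chartMap_tmul, map_mul]
      exact Submodule.smul_mem _ b (Submodule.subset_span (show mkR r ∈ Set.range mkR from ⟨r, rfl⟩))
    | add z₁ z₂ h₁ h₂ => rw [map_add, map_add]; exact add_mem (h₁ trivial) (h₂ trivial)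
  obtain ⟨bs, hbs, hspan, hli⟩ :=
    exists_linearIndependent Γ(Spec (CommRingCat.of K), ⊤) (Set.range mkR)
  haveI : Finite bs := hli.setFinite
  haveI := Fintype.ofFinite bs
  let eb := (Fintype.equivFin bs).symm
  choose rr hrr using fun i => hbs (eb i).2
  refine ⟨_, rr, (isColength_iff rr hs).mpr ?_⟩
  have hv : (fun i => Ideal.Quotient.mk (secIdeal s (M.V0 t)) (M.liftE t rr i)) =
      (Subtype.val ∘ eb) := funext hrr
  rw [quotMap, hv]
  refine ⟨linearIndependent_iff_injective_fintypeLinearCombination.mp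
    (hli.comp eb eb.injective), LinearMap.range_eq_top.mp ?_⟩
  rw [Fintype.range_linearCombination, Set.range_comp, eb.surjective.range_eq, Set.image_univ,
    Subtype.range_coe_subtype, Set.ofPred_mem_eq, hspan, hsp]

theorem exists_nhd {d : ℕ} (E : Fin d → Γ(C, M.U0)) {L : LineSys (pullback c t)} {s : L.Sec ⊤}
    (hs : M.Off t s) (K : Type u) [Field K] (σ : Spec (CommRingCat.of K) ⟶ T)
    (h : M.IsColength E (σ ≫ t) (bcSec (⟨σ, rfl⟩ : SchemeHomOver (σ ≫ t) t) s)) :
    ∃ W : T.Opens, IsAffineOpen W ∧ σ (IsLocalRing.closedPoint K) ∈ W ∧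
      M.IsColength E (W.ι ≫ t) (bcSec (⟨W.ι, rfl⟩ : SchemeHomOver (W.ι ≫ t) t) s) := by
  letI := M.algV0 t
  letI := (isField_Γ_spec K).toField
  obtain ⟨hfin, hproj, hprojA⟩ := finite_projective_quotient hs
  haveI : Module.FinitePresentation Γ(T, ⊤) (Γ(pullback c t, M.V0 t) ⧸ secIdeal s (M.V0 t)) :=
    Module.finitePresentation_of_projective _ _
  set φ : Γ(T, ⊤) →+* Γ(Spec (CommRingCat.of K), ⊤) :=
    (σ.appLE ⊤ ⊤ fun _ _ => trivial).hom with hφ
  letI : Algebra Γ(T, ⊤) Γ(Spec (CommRingCat.of K), ⊤) := φ.toAlgebra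
  let p : Ideal Γ(T, ⊤) := RingHom.ker φ
  haveI : p.IsPrime := RingHom.ker_isPrime φ
  letI : Algebra p.ResidueField Γ(Spec (CommRingCat.of K), ⊤) :=
    (Ideal.ResidueField.lift p φ le_rfl fun a ha =>
      IsUnit.mk0 _ fun h0 => ha (RingHom.mem_ker.mpr h0)).toAlgebra
  haveI : IsScalarTower Γ(T, ⊤) p.ResidueField Γ(Spec (CommRingCat.of K), ⊤) :=
    IsScalarTower.of_algebraMap_eq fun r => (Ideal.ResidueField.lift_algebraMap _ _ _ _ r).symm
  have hK := (bijective_bcSec_iff E (⟨σ, rfl⟩ : SchemeHomOver (σ ≫ t) t) hs).mp h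
  have hκ := bijective_lTensor_field (κ := p.ResidueField) _ hK
  obtain ⟨r, hr, hr'⟩ := exists_retraction_secIdeal hs
  set J := secIdeal s (M.V0 t)
  let ι : (J.restrictScalars Γ(T, ⊤)) →ₗ[Γ(T, ⊤)] Γ(pullback c t, M.V0 t) :=
    (J.restrictScalars Γ(T, ⊤)).subtype
  have hex : Function.Exact ι (Ideal.Quotient.mkₐ Γ(T, ⊤) J).toLinearMap := fun a =>
    ⟨fun ha => ⟨⟨a, Ideal.Quotient.eq_zero_iff_mem.mp ha⟩, rfl⟩,
      fun ⟨j, hj⟩ => Ideal.Quotient.eq_zero_iff_mem.mpr (hj ▸ j.2)⟩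
  have hinj : Function.Injective (ι.lTensor p.ResidueField) := by
    have hri : (r.codRestrict (J.restrictScalars Γ(T, ⊤)) hr).comp ι = LinearMap.id :=
      LinearMap.ext fun j => Subtype.ext (hr' _ j.2)
    refine Function.LeftInverse.injective
      (g := (r.codRestrict (J.restrictScalars Γ(T, ⊤)) hr).lTensor p.ResidueField) fun z => ?_
    rw [← LinearMap.comp_apply, ← LinearMap.lTensor_comp, hri, LinearMap.lTensor_id,
      LinearMap.id_apply]
  obtain ⟨g, hg, hgb⟩ := exists_away_bijective hex Ideal.Quotient.mk_surjective p hinj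
    (ι := ULift.{u} (Fin d))
    ((quotMap Γ(T, ⊤) J (M.liftE t E)).comp
      (LinearEquiv.funCongrLeft Γ(T, ⊤) Γ(T, ⊤) Equiv.ulift.symm).toLinearMap) (by
      rw [LinearMap.lTensor_comp]
      exact hκ.comp
        ((LinearEquiv.funCongrLeft Γ(T, ⊤) Γ(T, ⊤) Equiv.ulift.symm).lTensor _).bijective)
  refine ⟨T.basicOpen g, (isAffineOpen_top T).basicOpen g, ?_, ?_⟩
  · have hu : IsUnit (φ g) := IsUnit.mk0 _ fun h0 => hg (RingHom.mem_ker.mpr h0)
    have h2 := Scheme.basicOpen_of_isUnit _ hu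
    rw [hφ, Scheme.basicOpen_appLE] at h2
    exact (h2.ge (show IsLocalRing.closedPoint K ∈ (⊤ : (Spec (CommRingCat.of K)).Opens) from
      trivial)).2
  · haveI : IsAffine (T.basicOpen g).toScheme := (isAffineOpen_top T).basicOpen g
    let W := T.basicOpen g
    refine (bijective_bcSec_iff E (⟨W.ι, rfl⟩ : SchemeHomOver (W.ι ≫ t) t) hs).mpr ?_
    letI : Algebra Γ(T, ⊤) Γ(W.toScheme, ⊤) := (W.ι.appLE ⊤ ⊤ fun _ _ => trivial).hom.toAlgebra
    have hunit : IsUnit (algebraMap Γ(T, ⊤) Γ(W.toScheme, ⊤) g) := by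
      show IsUnit (W.ι.appLE ⊤ ⊤ _ g)
      have e : (⊤ : W.toScheme.Opens) ≤ W.ι ⁻¹ᵁ T.basicOpen g := fun x _ => x.2
      rw [← appLE_res W.ι (T.basicOpen_le g) e g]
      exact (T.toLocallyRingedSpace.toRingedSpace.isUnit_res_basicOpen g).map
        (W.ι.appLE _ _ e).hom
    have := bijective_lTensor_away g hunit _ hgb
    rw [LinearMap.lTensor_comp] at this
    exact (Function.Bijective.of_comp_iff _
      ((LinearEquiv.funCongrLeft Γ(T, ⊤) Γ(T, ⊤)
        (Equiv.ulift.{u, 0} (α := Fin d)).symm).lTensor _).bijective).mp this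

/-- G4. -/
theorem liftProperty : M.LiftProperty := by
  refine ⟨fun K _ _ t L s hs => M.exists_isColength K t hs, ?_⟩
  intro d E T _ t L s hs K _ _ σ h
  exact exists_nhd M t E hs K σ h

end CurveModel

end Fermat.Agent.Jacobian
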