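/-
The charts of the Jacobian exist and cover the geometric points.
-/
import Fermat.Agent.Jacobian.Charts.Assembly

set_option autoImplicit false
set_option linter.unusedVariables false

universe u

open CategoryTheory CategoryTheory.Limits AlgebraicGeometry AlgebraicGeometry.RelPicard
  TopologicalSpace Opposite NeronModelInfra GoodReductionJacobian

noncomputable section

namespace Fermat.Agent.Jacobian

variable {k : Type u} [Field k] {C : Scheme.{u}} {c : C ⟶ Spec (CommRingCat.of k)}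
  {ε : SchemeHomOver (𝟙 (Spec (CommRingCat.of k))) c}
variable {M : CurveModel c ε} {D : DiagDivisor c}

namespace CurveModel.Universal

variable {i : M.ChartIndex} (u₀ : M.Universal i) {U1 U2 : u₀.H.Opens}
variable (hu : GlobalUnits c) (hac : M.AcyclicProperty) (hsec : M.SectionProperty D)
  (hcol : M.ColengthProperty) (hlift : M.LiftProperty)
  (hU1 : ∀ (K : Type u) [Field K] [IsAlgClosed K] (s : Spec (CommRingCat.of K) ⟶ u₀.H),
    s (IsLocalRing.closedPoint K) ∈ U1 ↔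
      M.acyclic K (s ≫ u₀.η) (bcPic c (⟨s, rfl⟩ : SchemeHomOver (s ≫ u₀.η) u₀.η) (u₀.twisted D)))
  (hU2 : ∀ (K : Type u) [Field K] [IsAlgClosed K] (s : Spec (CommRingCat.of K) ⟶ u₀.H),
    s (IsLocalRing.closedPoint K) ∈ U2 ↔
      M.deg0 K (s ≫ u₀.η) (bcPic c (⟨s, rfl⟩ : SchemeHomOver (s ≫ u₀.η) u₀.η) (u₀.cls D)))

include hsec in
theorem rigHom_pieceCls (U : u₀.H.Opens) :
    rigHom c ε (U.ι ≫ u₀.η) (u₀.pieceCls U D) = 1 :=
  rigHom_bcPic_eq_one _ (u₀.rigHom_cls D hsec)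

include hu hac hsec hcol hlift hU1 hU2 in
theorem piece_openImage {T : Scheme.{u}} (t : T ⟶ Spec (CommRingCat.of k))
    (a : LinePic (pullback c t)) (hra : rigHom c ε t a = 1) (hd : OnFibres c M.deg0 t a) :
    ∃ U : T.Opens, ∀ {T' : Scheme.{u}} (h : T' ⟶ T), Set.range h ⊆ (U : Set T) ↔
      ∃ g : SchemeHomOver (h ≫ t) ((U1 ⊓ U2).ι ≫ u₀.η),
        bcPic c g (u₀.pieceCls (U1 ⊓ U2) D) =
          bcPic c (⟨h, rfl⟩ : SchemeHomOver (h ≫ t) t) a := by
  let S : Set T := {x | ∃ (W : Scheme.{u}) (j : W ⟶ T) (_ : IsOpenImmersion j)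
      (g : SchemeHomOver (j ≫ t) ((U1 ⊓ U2).ι ≫ u₀.η)), x ∈ j.opensRange ∧
        bcPic c g (u₀.pieceCls (U1 ⊓ U2) D) = bcPic c (⟨j, rfl⟩ : SchemeHomOver (j ≫ t) t) a}
  have hS : IsOpen S := by
    rw [isOpen_iff_forall_mem_open]
    rintro x ⟨W, j, hj, g, hx, hg⟩
    exact ⟨_, fun y hy => ⟨W, j, hj, g, hy, hg⟩, j.opensRange.2, hx⟩
  refine ⟨⟨S, hS⟩, fun {T'} h => ⟨fun hh => ?_, ?_⟩⟩
  · choose W j hj g hxW hg using fun x : T' => hh ⟨x, rfl⟩
    haveI := hj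
    let 𝒰 : T'.OpenCover := Scheme.openCoverOfIsOpenCover T' (fun x => h ⁻¹ᵁ (j x).opensRange)
      (top_le_iff.mp fun y _ => Opens.mem_iSup.mpr ⟨y, hxW y⟩)
    have hr : ∀ x : 𝒰.I₀, Set.range (𝒰.f x ≫ h) ⊆ Set.range (j x) := by
      rintro x _ ⟨⟨y, hy⟩, rfl⟩
      rw [Scheme.Hom.comp_apply]
      exact hy
    let g' : ∀ x : 𝒰.I₀, SchemeHomOver (𝒰.f x ≫ h ≫ t) ((U1 ⊓ U2).ι ≫ u₀.η) := fun x =>
      ⟨IsOpenImmersion.lift (j x) _ (hr x) ≫ (g x).1, by
        rw [Category.assoc, (g x).2, ← Category.assoc, IsOpenImmersion.lift_fac, Category.assoc]⟩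
    have hg' : ∀ x, bcPic c (g' x) (u₀.pieceCls (U1 ⊓ U2) D) =
        bcPic c (⟨𝒰.f x ≫ h, Category.assoc _ _ _⟩ : SchemeHomOver (𝒰.f x ≫ h ≫ t) t) a := fun x => by
      let l : SchemeHomOver (𝒰.f x ≫ h ≫ t) (j x ≫ t) :=
        ⟨IsOpenImmersion.lift (j x) _ (hr x), by
          rw [← Category.assoc, IsOpenImmersion.lift_fac, Category.assoc]⟩
      rw [← bcPic_bcPic_eq (g x) l (g' x) rfl, hg x]
      exact bcPic_bcPic_eq _ _ _ (IsOpenImmersion.lift_fac _ _ _) a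
    have hcomp : ∀ x y : 𝒰.I₀, pullback.fst (𝒰.f x) (𝒰.f y) ≫ (g' x).1 =
        pullback.snd (𝒰.f x) (𝒰.f y) ≫ (g' y).1 := fun x y => by
      let v := pullback.fst (𝒰.f x) (𝒰.f y) ≫ 𝒰.f x ≫ h ≫ t
      let px : SchemeHomOver v (𝒰.f x ≫ h ≫ t) := ⟨pullback.fst _ _, rfl⟩
      let py : SchemeHomOver v (𝒰.f y ≫ h ≫ t) :=
        ⟨pullback.snd _ _, (pullback.condition_assoc (h ≫ t)).symm⟩
      refine congrArg Subtype.val (u₀.piece_inj hsec hcol hU1 v (postComp (g' x) px)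
        (postComp (g' y) py) ?_)
      rw [← bcPic_bcPic, ← bcPic_bcPic, hg', hg', bcPic_bcPic, bcPic_bcPic]
      exact bcPic_congr (pullback.condition_assoc h) a
    let G : SchemeHomOver (h ≫ t) ((U1 ⊓ U2).ι ≫ u₀.η) :=
      ⟨𝒰.glueMorphisms (fun x => (g' x).1) hcomp, 𝒰.hom_ext _ _ fun x => by
        rw [← Category.assoc, Scheme.Cover.ι_glueMorphisms, (g' x).2]⟩
    have hGx : ∀ x, 𝒰.f x ≫ G.1 = (g' x).1 := fun x =>
      Scheme.Cover.ι_glueMorphisms 𝒰 (fun x => (g' x).1) hcomp x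
    refine ⟨G, eq_of_local hu (h ≫ t) 𝒰 _ _ (rigHom_bcPic_eq_one _ (u₀.rigHom_pieceCls hsec _))
      (rigHom_bcPic_eq_one _ hra) fun x => ?_⟩
    let ψ : SchemeHomOver (𝒰.f x ≫ h ≫ t) (h ≫ t) := ⟨𝒰.f x, rfl⟩
    show bcPic c ψ (bcPic c G _) = bcPic c ψ (bcPic c _ a)
    rw [bcPic_bcPic_eq G ψ (g' x) (hGx x), hg']
    exact (bcPic_bcPic_eq (⟨h, rfl⟩ : SchemeHomOver (h ≫ t) t) ψ _ rfl a).symm
  · rintro ⟨g, hg⟩ _ ⟨y, rfl⟩
    obtain ⟨K, _, _, σ, hσ⟩ := Props.exists_geomPoint T' y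
    let e : SchemeHomOver ((σ ≫ h) ≫ t) (h ≫ t) := ⟨σ, (Category.assoc _ _ _).symm⟩
    exact u₀.exists_lift_near hac hsec hcol hlift hU1 hU2 t a hra hd (h y) K (σ ≫ h)
      (by rw [Scheme.Hom.comp_apply, hσ]) (postComp g e)
      (by rw [← bcPic_bcPic, hg, bcPic_bcPic]; exact bcPic_congr rfl a)

end CurveModel.Universal

/-- The charts exist. -/
theorem CurveModel.chartsProperty_of_parts (hu : GlobalUnits c) (hchi : M.ChiLocConstProperty)
    (hone : M.UnitClassProperty) (hF : M.FieldTheory D) (hac : M.AcyclicProperty)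
    (hsec : M.SectionProperty D) (hcol : M.ColengthProperty) (hlift : M.LiftProperty) :
    M.ChartsProperty := by
  let u : ∀ i : M.ChartIndex, M.Universal i := fun i => (hcol.nonempty_universal i).some
  choose U1 hU1 using fun i => hac.1 (u i).η ((u i).twisted D)
  choose U2 hU2 using fun i => M.exists_open_chi hchi (u i).η ((u i).cls D)
  let ch : M.ChartIndex → PicChart c ε M.deg0 := fun i =>
    { X := (U1 i ⊓ U2 i : (u i).H.Opens).toScheme
      hom := (U1 i ⊓ U2 i).ι ≫ (u i).η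
      cls := (u i).pieceCls (U1 i ⊓ U2 i) D
      rig_cls := (u i).rigHom_pieceCls hsec _
      mem := (range_subset_iff_onFibres (Q := M.deg0) (hU2 i) _).mp fun x hx =>
        ((Scheme.Opens.range_ι _).le hx).2
      inj := fun t g g' h => (u i).piece_inj hsec hcol (hU1 i) t g g' h
      openImage := fun t a hra hd =>
        (u i).piece_openImage hu hac hsec hcol hlift (hU1 i) (hU2 i) t a hra hd }
  refine ⟨M.ChartIndex, ch, fun i => ?_, ?_⟩
  · haveI := (u i).smooth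
    exact inferInstanceAs (Smooth ((U1 i ⊓ U2 i).ι ≫ (u i).η))
  · intro K _ _ t a ha hd
    obtain ⟨P, Q, hlen, hh1⟩ := hF.translate K t a hd
    let i₀ : M.ChartIndex := ⟨P, Q, 0, Fin.elim0⟩
    have hN : M.acyclic K t (a * i₀.twist D t) := by
      refine ⟨?_, ?_⟩
      · rw [CurveModel.ChartIndex.twist, ← mul_assoc]
        exact hh1
      · rw [hF.chi_mul, i₀.chiAt_twist D hlen hone hF, show M.chiAt t a = M.chiOne from hd]
        ring
    obtain ⟨V, hV⟩ := hac.1 t (a * i₀.twist D t)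
    have hN' := onFibres_field (Q := M.acyclic) hV hN
    obtain ⟨L, hL⟩ := LinePic.mk_surjective (a * i₀.twist D t * D.pointClass (constPt t ε))
    obtain ⟨s, hs⟩ := (hsec t).2.1 L (by rw [hL, mul_div_cancel_right]; exact hN')
      (Props.rigHom_field t _)
    obtain ⟨d, E, hE⟩ := hlift.1 K t L s hs
    refine ⟨⟨P, Q, d, E⟩, ?_⟩
    obtain ⟨W, hW⟩ := M.exists_open_chi hchi t a
    exact (u _).exists_lift (hU1 _) (hU2 _) t a (onFibres_field (Q := M.deg0) hW hd) hN' L s hL hE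

end Fermat.Agent.Jacobian
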