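/-
G2: when the twist by the marked point is acyclic, sections without zero on the marked section
correspond to trivialisations along it (`SectionProperty`).
-/
import Fermat.Agent.Jacobian.Charts.Defs
import Fermat.Agent.Jacobian.Curve.PointDivisor
import Fermat.Agent.Jacobian.Divisor.Kernel
import Fermat.Agent.Jacobian.Line.AffineBaseChange

set_option autoImplicit false

universe u

open CategoryTheory CategoryTheory.Limits AlgebraicGeometry AlgebraicGeometry.RelPicard
  TopologicalSpace Opposite NeronModelInfra GoodReductionJacobian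

noncomputable section

namespace Fermat.Agent.Jacobian.SectionLift

variable {X Y Z : Scheme.{u}}

/-! ### Nowhere vanishing sections -/

theorem nonvanishingAt_pull_iff (f : Y ⟶ X) {L : LineSys X} (s : L.Sec ⊤) (y : Y) :
    NonvanishingAt (s.pull f (V' := ⊤) le_top) y ↔ NonvanishingAt s (f y) := by
  refine ⟨fun h => ?_, fun h => h.pull f⟩
  have h' := (nonvanishingAt_iff (s.pull f (V' := ⊤) le_top) y y (f ⁻¹ᵁ L.U (f y)) le_rfl
    (L.mem _)).mp h
  have e := LineSys.Sec.coord_pull f (V' := ⊤) le_top s y (f ⁻¹ᵁ L.U (f y)) le_top le_rfl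
    (L.U (f y)) le_top le_rfl le_rfl
  have h'' := (congrArg Y.basicOpen e).le h'
  rw [Scheme.basicOpen_appLE] at h''
  exact h''.2

theorem isUnit_coord {L : LineSys X} {s : L.Sec ⊤} (hs : ∀ q, NonvanishingAt s q) (x : X)
    (W : X.Opens) (hx : W ≤ L.U x) : IsUnit (s.coord x W le_top hx) :=
  X.toLocallyRingedSpace.toRingedSpace.isUnit_of_isUnit_germ W _ fun q hq =>
    (nonvanishingAt_iff_isUnit_germ s q x W hx hq).mp (hs q)

theorem nonvanishingAt_of_isUnit {L : LineSys X} {s : L.Sec ⊤}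
    (hs : ∀ x W (hx : W ≤ L.U x), IsUnit (s.coord x W le_top hx)) (q : X) : NonvanishingAt s q := by
  refine (nonvanishingAt_iff s q q (L.U q) le_rfl (L.mem q)).mpr ?_
  rw [Scheme.basicOpen_of_isUnit _ (hs _ _ _)]
  exact L.mem q

theorem nonvanishingAt_isImage {L L' : LineSys X} {e : LineSys.Iso L L'} {s : L.Sec ⊤}
    {s' : L'.Sec ⊤} (h : LineSys.Sec.IsImage e s s') {q : X} :
    NonvanishingAt s q ↔ NonvanishingAt s' q := by
  rw [nonvanishingAt_iff_isUnit_germ s q q (L.U q ⊓ L'.U q) inf_le_left ⟨L.mem q, L'.mem q⟩,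
    nonvanishingAt_iff_isUnit_germ s' q q (L.U q ⊓ L'.U q) inf_le_right ⟨L.mem q, L'.mem q⟩,
    h q q _ le_top inf_le_left inf_le_right, map_mul, IsUnit.mul_iff]
  exact and_iff_right ((Units.isUnit _).map _)

/-- The isomorphism with the trivial system given by a nowhere vanishing section. -/
theorem exists_trivialise {L : LineSys X} {s : L.Sec ⊤} (hs : ∀ q, NonvanishingAt s q) :
    ∃ e : LineSys.Iso L (LineSys.triv X),
      LineSys.Sec.IsImage e s (LineSys.trivSec X ⊤) := by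
  refine ⟨⟨fun x _ V hx _ => (isUnit_coord hs x V hx).unit, ?_, ?_, ?_⟩, ?_⟩
  · intro x _ V W i hx _
    exact Units.ext (s.coord_res x i le_top hx)
  · intro x y _ V hx hy _
    exact Units.ext (s.coord_g x y V le_top hx hy).symm
  · intro x a b V hx _ _
    exact mul_one _
  · intro x a W h hx ha
    exact (mul_one _).symm

theorem exists_nonvanishing {L : LineSys X} (h : LinePic.mk L = 1) :
    ∃ s : L.Sec ⊤, ∀ q, NonvanishingAt s q := by
  obtain ⟨e⟩ := LinePic.mk_eq_mk.mp h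
  obtain ⟨s, hs⟩ := (e.secMap ⊤).surjective (LineSys.trivSec X ⊤)
  refine ⟨s, nonvanishingAt_of_isUnit fun x W hx => ?_⟩
  have hi := e.isImage_secMap s
  rw [hs] at hi
  rw [hi x x W le_top hx le_top]
  exact (Units.isUnit _).mul isUnit_one

/-- Two nowhere vanishing sections differ by a unit. -/
theorem exists_unit_smul {L : LineSys X} {s s' : L.Sec ⊤} (hs : ∀ q, NonvanishingAt s q)
    (hs' : ∀ q, NonvanishingAt s' q) : ∃ r : Γ(X, ⊤)ˣ, s' = (r : Γ(X, ⊤)) • s := by
  obtain ⟨e, he⟩ := exists_trivialise hs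
  have h' := e.isImage_secMap s'
  have hf : ∀ q, NonvanishingAt (e.secMap ⊤ s') q := fun q =>
    (nonvanishingAt_isImage h').mp (hs' q)
  have hu : IsUnit (LineSys.trivEquiv ⊤ (e.secMap ⊤ s')) := by
    refine X.toLocallyRingedSpace.toRingedSpace.isUnit_of_isUnit_germ ⊤ _ fun q hq => ?_
    have h1 := (nonvanishingAt_iff_isUnit_germ (e.secMap ⊤ s') q q ⊤ le_rfl hq).mp (hf q)
    rw [← LineSys.res_trivEquiv _ q ⊤ le_top le_rfl, res_self] at h1
    exact h1
  refine ⟨hu.unit, (e.secMap ⊤).injective ?_⟩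
  rw [map_smul, e.secMap_eq_of_isImage he]
  exact ((LineSys.trivEquiv ⊤).symm_apply_apply (e.secMap ⊤ s')).symm

/-! ### Multiples of the section of a divisor -/

/-- Sections are determined in the frames of two systems at once. -/
theorem sec_ext_two {L M : LineSys X} {V : X.Opens} {a b : L.Sec V}
    (h : ∀ (x : X) (W : X.Opens) (hW : W ≤ V) (hx : W ≤ L.U x), W ≤ M.U x →
      a.coord x W hW hx = b.coord x W hW hx) : a = b := by
  ext x W hW hx
  refine fun_ext (fun z => W ⊓ (L.U z ⊓ M.U z)) (fun z => inf_le_left)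
    (fun p hp => Opens.mem_iSup.mpr ⟨p, hp, L.mem p, M.mem p⟩) fun z => ?_
  rw [a.coord_res, b.coord_res,
    a.coord_g x z _ (inf_le_left.trans hW) (inf_le_left.trans hx)
      (inf_le_right.trans inf_le_left),
    b.coord_g x z _ (inf_le_left.trans hW) (inf_le_left.trans hx)
      (inf_le_right.trans inf_le_left),
    h z _ (inf_le_left.trans hW) (inf_le_right.trans inf_le_left)
      (inf_le_right.trans inf_le_right)]

variable {i : Z ⟶ X} (E : LineDivisor i) {L : LineSys X}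

/-- `s = t ⊗ (section of the divisor)`. -/
def IsMul {V : X.Opens} (t : (L.tens E.L.dual).Sec V) (s : L.Sec V) : Prop :=
  ∀ (x : X) (W : X.Opens) (h : W ≤ V) (hL : W ≤ L.U x) (hE : W ≤ E.L.U x),
    s.coord x W h hL = t.coord x W h (le_inf hL hE) * E.s.coord x W le_top hE

theorem exists_isMul {V : X.Opens} (t : (L.tens E.L.dual).Sec V) : ∃ s, IsMul E t s := by
  let e : LineSys.Iso ((L.tens E.L.dual).tens E.L) L :=
    { h := fun x a W hx ha => L.g x a W (hx.trans (inf_le_left.trans inf_le_left)) ha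
      h_res := fun x a W W' j hx ha => L.g_res x a j _ _
      g_h := fun x y a W hx hy ha => by
        simp only [LineSys.tens, LineSys.dual, inv_mul_cancel_right]
        exact L.g_mul ..
      h_g := fun x a b W hx ha hb => L.g_mul .. }
  refine ⟨e.secMap V (t.mul (E.s.restrict le_top)), fun x W h hL hE => ?_⟩
  have hi := e.isImage_secMap (t.mul (E.s.restrict le_top)) x x W h (le_inf (le_inf hL hE) hE) hL
  rw [LineSys.Sec.coord_mul, LineSys.Sec.coord_restrict,
    show e.h x x W (le_inf (le_inf hL hE) hE) hL = 1 from LineSys.g_self _ _ _ _ _,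
    Units.val_one, one_mul] at hi
  exact hi.symm

theorem appLE_coord_eq_zero (x : X) (W : X.Opens) (hx : W ≤ E.L.U x) (W' : Z.Opens)
    (e : W' ≤ i ⁻¹ᵁ W) : i.appLE W W' e (E.s.coord x W le_top hx) = 0 := by
  refine fun_ext (fun A : {A : X.Opens // IsAffineOpen A ∧ A ≤ W} => W' ⊓ i ⁻¹ᵁ A.1)
    (fun A => inf_le_left) (fun p hp => ?_) fun A => ?_
  · obtain ⟨A, hA⟩ := Opens.mem_iSup.mp (affine_le_cover W (e hp))
    exact Opens.mem_iSup.mpr ⟨A, hp, hA⟩
  · rw [map_zero, res_appLE, ← appLE_res i A.2.2 inf_le_right, E.s.coord_res,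
      ← res_appLE i (le_refl (i ⁻¹ᵁ A.1)) inf_le_right]
    have hmem : E.s.coord x A.1 le_top (A.2.2.trans hx) ∈ RingHom.ker (i.app A.1).hom := by
      rw [E.ker_eq x A.1 A.2.1 (A.2.2.trans hx)]
      exact Ideal.mem_span_singleton_self _
    rw [RingHom.mem_ker, Scheme.Hom.app_eq_appLE] at hmem
    rw [hmem, map_zero]

theorem pull_eq_zero_of_isMul {V : X.Opens} {t : (L.tens E.L.dual).Sec V} {s : L.Sec V}
    (h : IsMul E t s) {V' : Z.Opens} (e : V' ≤ i ⁻¹ᵁ V) : s.pull i e = 0 := by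
  refine sec_ext_two (M := E.L.pull i) fun z W hW hz hzE => ?_
  let T := V ⊓ L.U (i z) ⊓ E.L.U (i z)
  have hT : W ≤ i ⁻¹ᵁ T := fun p hp => ⟨⟨e (hW hp), hz hp⟩, hzE hp⟩
  rw [LineSys.Sec.coord_pull i e s z W hW hz T (inf_le_left.trans inf_le_left)
      (inf_le_left.trans inf_le_right) hT,
    h (i z) T (inf_le_left.trans inf_le_left) (inf_le_left.trans inf_le_right) inf_le_right,
    map_mul, appLE_coord_eq_zero, mul_zero, LineSys.Sec.coord_zero]

theorem exists_isMul_of_pull_eq_zero {V : X.Opens} {s : L.Sec V}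
    (h : s.pull i (V' := i ⁻¹ᵁ V) le_rfl = 0) : ∃ t, IsMul E t s :=
  (E.existsUnique_mul_of_pull_eq_zero L s h).exists

theorem isMul_restrict {V V' : X.Opens} (j : V' ≤ V) {t : (L.tens E.L.dual).Sec V} {s : L.Sec V}
    (h : IsMul E t s) : IsMul E (t.restrict j) (s.restrict j) :=
  fun x W hW hL hE => h x W (hW.trans j) hL hE

/-- If the twist by the divisor has no sections, a section vanishing along it is zero. -/
theorem eq_zero_of_pull_eq_zero [Subsingleton ((L.tens E.L.dual).Sec ⊤)] {s : L.Sec ⊤}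
    (h : s.pull i (V' := ⊤) le_top = 0) : s = 0 := by
  obtain ⟨t, ht⟩ := exists_isMul_of_pull_eq_zero E h
  refine sec_ext_two (M := E.L) fun x W hW hL hE => ?_
  rw [ht x W hW hL hE, Subsingleton.elim t 0, LineSys.Sec.coord_zero, zero_mul,
    LineSys.Sec.coord_zero]

/-- Sections on the second open lift to global sections with the same restriction to the divisor,
if the twist has no first cohomology. -/
theorem exists_global_lift (U0 U1 : X.Opens) (hcov : U0 ⊔ U1 = ⊤) (hi : i ⁻¹ᵁ U0 = ⊥)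
    (hsurj : ∀ t : (L.tens E.L.dual).Sec (U0 ⊓ U1), ∃ (t₀ : (L.tens E.L.dual).Sec U0)
      (t₁ : (L.tens E.L.dual).Sec U1), t = t₀.restrict inf_le_left - t₁.restrict inf_le_right)
    (hi1 : ⊤ ≤ i ⁻¹ᵁ U1) (s₁ : L.Sec U1) :
    ∃ s : L.Sec ⊤, s.pull i (V' := ⊤) le_top = s₁.pull i hi1 := by
  have h0 : (s₁.restrict inf_le_right : L.Sec (U0 ⊓ U1)).pull i (V' := i ⁻¹ᵁ (U0 ⊓ U1)) le_rfl =
      0 := by
    ext z W hW hz
    have hW0 : W = ⊥ := le_bot_iff.mp ((hW.trans (fun _ hp => hp.1)).trans hi.le)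
    subst hW0
    have : Subsingleton Γ(Z, (⊥ : Z.Opens)) :=
      CommRingCat.subsingleton_of_isTerminal Z.sheaf.isTerminalOfEmpty
    exact Subsingleton.elim _ _
  obtain ⟨t, ht⟩ := exists_isMul_of_pull_eq_zero E h0
  obtain ⟨t₀, t₁, hd⟩ := hsurj t
  obtain ⟨a₀, ha₀⟩ := exists_isMul E t₀
  obtain ⟨a₁, ha₁⟩ := exists_isMul E t₁
  have hagree : a₀.restrict (inf_le_left : U0 ⊓ U1 ≤ U0) =
      (s₁ + a₁).restrict (inf_le_right : U0 ⊓ U1 ≤ U1) := by
    refine sec_ext_two (M := E.L) fun x W hW hL hE => ?_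
    have h1 := ht x W hW hL hE
    rw [hd, LineSys.Sec.coord_sub, sub_mul] at h1
    rw [← (isMul_restrict E inf_le_left ha₀) x W hW hL hE,
      ← (isMul_restrict E inf_le_right ha₁) x W hW hL hE] at h1
    rw [LineSys.Sec.restrict_add, LineSys.Sec.coord_add, h1]
    exact (sub_add_cancel _ _).symm
  let U : ULift.{u} Bool → X.Opens := fun b => bif b.down then U0 else U1
  have hU : (⊤ : X.Opens) ≤ iSup U := by
    rw [← hcov]
    exact sup_le (le_iSup U ⟨true⟩) (le_iSup U ⟨false⟩)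
  obtain ⟨s, hs, -⟩ := LineSys.Sec.existsUnique_glue (L := L) U (fun b => le_top) hU
    (fun b => match b with | ⟨true⟩ => a₀ | ⟨false⟩ => s₁ + a₁) (by
      rintro ⟨⟨⟩⟩ ⟨⟨⟩⟩
      · rfl
      · have := congrArg (fun u : L.Sec (U0 ⊓ U1) =>
          u.restrict (le_inf inf_le_right inf_le_left : U1 ⊓ U0 ≤ U0 ⊓ U1)) hagree.symm
        simpa only [LineSys.Sec.restrict_restrict] using this
      · exact hagree
      · rfl)
  refine ⟨s, ?_⟩
  have h1 : s.restrict le_top = s₁ + a₁ := hs ⟨false⟩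
  have h2 : (s₁ + a₁).pull i hi1 = s₁.pull i hi1 := by
    rw [LineSys.Sec.pull_add, pull_eq_zero_of_isMul E ha₁ hi1, add_zero]
  rw [← h2, ← h1]
  ext z W hW hz
  have hT : W ≤ i ⁻¹ᵁ (U1 ⊓ L.U (i z)) := fun p hp => ⟨hi1 (hW hp), hz hp⟩
  rw [LineSys.Sec.coord_pull i _ s z W hW hz _ le_top inf_le_right hT,
    LineSys.Sec.coord_pull i hi1 (s.restrict le_top) z W hW hz _ inf_le_left inf_le_right hT]
  rfl

end Fermat.Agent.Jacobian.SectionLift

namespace Fermat.Agent.Jacobian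

open SectionLift

variable {k : Type u} [Field k] {C : Scheme.{u}} {c : C ⟶ Spec (CommRingCat.of k)}
  {ε : SchemeHomOver (𝟙 (Spec (CommRingCat.of k))) c}

/-- The points off the first chart are those on the marked section. -/
theorem CurveModel.notMem_V0_iff (M : CurveModel c ε) {T : Scheme.{u}}
    (t : T ⟶ Spec (CommRingCat.of k)) (q : (pullback c t : Scheme.{u})) :
    q ∉ M.V0 t ↔ q ∈ Set.range (rigSection c t ε) := by
  have h := isPullback_rigSection t ε
  have hr : Set.range (rigSection c t ε) = pullback.fst c t ⁻¹' Set.range ε.1 := by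
    rw [← Scheme.Pullback.range_fst, ← h.isoPullback_hom_fst]
    exact Set.ext fun p => ⟨fun ⟨y, hy⟩ => ⟨h.isoPullback.hom y, by rw [← Scheme.Hom.comp_apply, hy]⟩,
      fun ⟨y, hy⟩ => ⟨h.isoPullback.inv y, by
        rw [← Scheme.Hom.comp_apply, Iso.inv_hom_id_assoc, hy]⟩⟩
  show ¬ (pullback.fst c t q ∈ M.U0) ↔ _
  rw [hr, M.mem_U0]
  exact not_not

theorem CurveModel.rigSection_preimage (M : CurveModel c ε) {T : Scheme.{u}}
    (t : T ⟶ Spec (CommRingCat.of k)) :
    rigSection c t ε ⁻¹ᵁ M.V0 t = ⊥ ∧ (⊤ : T.Opens) ≤ rigSection c t ε ⁻¹ᵁ M.V1 t := by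
  have h : ∀ y, rigSection c t ε y ∉ M.V0 t := fun y => (M.notMem_V0_iff t _).mpr ⟨y, rfl⟩
  refine ⟨Opens.ext (Set.eq_empty_of_forall_notMem h), fun y _ => ?_⟩
  have hy : pullback.fst c t (rigSection c t ε y) ∈ M.U0 ⊔ M.U1 := by rw [M.cover]; trivial
  exact hy.resolve_left (h y)

theorem CurveModel.off_iff (M : CurveModel c ε) {T : Scheme.{u}}
    (t : T ⟶ Spec (CommRingCat.of k)) {L : LineSys (pullback c t)} (s : L.Sec ⊤) :
    M.Off t s ↔ ∀ y, NonvanishingAt (s.pull (rigSection c t ε) (V' := ⊤) le_top) y := by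
  refine ⟨fun h y => (nonvanishingAt_pull_iff _ s y).mpr
    (h _ ((M.notMem_V0_iff t _).mpr ⟨y, rfl⟩)), fun h q hq => ?_⟩
  obtain ⟨y, rfl⟩ := (M.notMem_V0_iff t q).mp hq
  exact (nonvanishingAt_pull_iff _ s y).mp (h y)

theorem CurveModel.appLE_baseHom {T : Scheme.{u}} (t : T ⟶ Spec (CommRingCat.of k))
    (V : (pullback c t).Opens) (hV : ⊤ ≤ rigSection c t ε ⁻¹ᵁ V) (r : Γ(T, ⊤)) :
    (rigSection c t ε).appLE V ⊤ hV (baseHom (pullback.snd c t) V r) = r := by
  have h : rigSection c t ε ≫ pullback.snd c t = 𝟙 T := pullback.lift_snd _ _ _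
  show (rigSection c t ε).appLE V ⊤ hV ((pullback.snd c t).appLE ⊤ V (fun _ _ => trivial) r) = r
  rw [← ConcreteCategory.comp_apply, Scheme.Hom.appLE_comp_appLE]
  simp only [h]
  exact res_self (le_refl ⊤) r

theorem CurveModel.exists_lift_V1 (M : CurveModel c ε) {T : Scheme.{u}} [IsAffine T]
    (t : T ⟶ Spec (CommRingCat.of k)) (hV1 : IsAffineOpen (M.V1 t)) (L : LineSys (pullback c t))
    (z : (L.pull (rigSection c t ε)).Sec ⊤) :
    ∃ s : L.Sec (M.V1 t), s.pull (rigSection c t ε) (M.rigSection_preimage t).2 = z := by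
  have e := (M.rigSection_preimage t).2
  have h : z ∈ Submodule.span Γ(T, ⊤)
      (Set.range fun s : L.Sec (M.V1 t) => s.pull (rigSection c t ε) e) := by
    rw [LineSys.Sec.span_range_pull _ hV1 e]
    trivial
  induction h using Submodule.span_induction with
  | mem x hx => exact hx
  | zero => exact ⟨0, LineSys.Sec.ext fun x W hW hx => map_zero _⟩
  | add x y _ _ hx hy =>
    obtain ⟨a, rfl⟩ := hx
    obtain ⟨b, rfl⟩ := hy
    exact ⟨a + b, LineSys.Sec.pull_add _ _ a b⟩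
  | smul r x _ hx =>
    obtain ⟨a, rfl⟩ := hx
    exact ⟨baseHom (pullback.snd c t) (M.V1 t) r • a,
      (LineSys.Sec.pull_smul _ _ _ a).trans (by rw [CurveModel.appLE_baseHom])⟩

/-- G2: sections without zero on the marked section correspond to trivialisations along it. -/
theorem CurveModel.sectionProperty (M : CurveModel c ε) (D : DiagDivisor c)
    (hpt : PointDivisorProperty c D) (hac : M.AcyclicProperty) : M.SectionProperty D := by
  intro T _ t
  let σ := rigSection c t ε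
  obtain ⟨hσ0, hσ1⟩ := M.rigSection_preimage t
  obtain ⟨E, hE⟩ := hpt.2 t ε
  have hH : ∀ L : LineSys (pullback c t),
      OnFibres c M.acyclic t (LinePic.mk L / D.pointClass (constPt t ε)) →
      (∀ s : L.Sec ⊤, s.pull σ (V' := ⊤) le_top = 0 → s = 0) ∧
        ∀ z : (L.pull σ).Sec ⊤, ∃ s : L.Sec ⊤, s.pull σ (V' := ⊤) le_top = z := by
    intro L hL
    have hN : LinePic.mk (L.tens E.L.dual) = LinePic.mk L / D.pointClass (constPt t ε) := by
      rw [← hE, div_eq_mul_inv]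
      rfl
    obtain ⟨h0, h1⟩ := hac.2 t (L.tens E.L.dual) (hN ▸ hL)
    have : Subsingleton ((L.tens E.L.dual).Sec ⊤) := h0
    refine ⟨fun s hs => eq_zero_of_pull_eq_zero E hs, fun z => ?_⟩
    obtain ⟨s₁, hs₁⟩ := M.exists_lift_V1 t (isAffineOpen_fst_preimage c t M.isAffine1) L z
    obtain ⟨s, hs⟩ := exists_global_lift E (M.V0 t) (M.V1 t)
      (by rw [← Scheme.Hom.preimage_sup, M.cover, Scheme.Hom.preimage_top]) hσ0 (fun w => by
        obtain ⟨⟨w₀, w₁⟩, hw⟩ := h1 w
        refine ⟨w₀, w₁, hw.symm.trans ?_⟩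
        rw [sub_eq_add_neg]
        rfl) hσ1 s₁
    exact ⟨s, hs.trans hs₁⟩
  refine ⟨fun L s hs => ?_, fun L hL hrig => ?_, fun L L' s s' hL hcls hs hs' => ?_⟩
  · obtain ⟨e, -⟩ := exists_trivialise ((M.off_iff t s).mp hs)
    exact LinePic.mk_eq_mk.mpr ⟨e⟩
  · obtain ⟨z, hz⟩ := exists_nonvanishing (L := L.pull σ) hrig
    obtain ⟨s, rfl⟩ := (hH L hL).2 z
    exact ⟨s, (M.off_iff t s).mpr hz⟩
  · obtain ⟨e⟩ := LinePic.mk_eq_mk.mp hcls
    have h1 := e.isImage_secMap s
    have hs1 : M.Off t (e.secMap ⊤ s) := fun q hq => (nonvanishingAt_isImage h1).mp (hs q hq)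
    obtain ⟨r, hr⟩ := exists_unit_smul ((M.off_iff t _).mp hs1) ((M.off_iff t s').mp hs')
    let v : Γ(pullback c t, ⊤)ˣ := Units.map (baseHom (pullback.snd c t) ⊤).toMonoidHom r
    have hv : s' = (v : Γ(pullback c t, ⊤)) • e.secMap ⊤ s := by
      rw [← sub_eq_zero]
      refine (hH L' (hcls ▸ hL)).1 _ ?_
      have hsub : ∀ a b : L'.Sec ⊤, (a - b).pull σ (V' := ⊤) le_top =
          a.pull σ (V' := ⊤) le_top - b.pull σ (V' := ⊤) le_top := fun a b => by
        rw [eq_sub_iff_add_eq, ← LineSys.Sec.pull_add, sub_add_cancel]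
      rw [hsub, LineSys.Sec.pull_smul, hr, sub_eq_zero]
      congr 1
      exact (CurveModel.appLE_baseHom t ⊤ le_top (r : Γ(T, ⊤))).symm
    refine ⟨⟨fun x a V hx ha => e.h x a V hx ha * (resU le_top v)⁻¹, ?_, ?_, ?_⟩, ?_⟩
    · intro x a V W j hx ha
      rw [map_mul, e.h_res, map_inv, resU_resU]
    · intro x y a V hx hy ha
      rw [← mul_assoc, e.g_h]
    · intro x a b V hx ha hb
      rw [mul_right_comm, e.h_g]
    · intro x a W h hx ha
      rw [hv, LineSys.Sec.coord_smul, h1 x a W h hx ha, Units.val_mul, mul_assoc]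
      congr 1
      exact (Units.inv_mul_cancel_left (resU le_top v) _).symm

end Fermat.Agent.Jacobian
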